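/-
S27 (row 26), char-p half (planner helper62), package ZETA-ABS: the ABSTRACT zeta system.
Plan: NOTES/plan/S27_CHARP.md.  Mathlib only: no function fields here.

A `ZSys Pl` is what is left of a curve over a finite field `𝔽_Q`, seen over the algebraic closure:
the set `Pl` of places (all of degree 1), the Frobenius permutation `φ` of `Pl` (finite orbits,
finitely many fixed points of every power, one fixed place), the subgroup `Princ` of principal
divisors, the function `l = dim L(·)`, Riemann–Roch with a canonical divisor `W`, and the COUNTING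
AXIOM `cnt`: a `φ^m`-invariant class `[D]` contains exactly `(Q^(m l(D)) - 1)/(Q^m - 1)`
`φ^m`-invariant effective divisors.
Target `Stmt_Z_Main`: `#Cl⁰[ℓ^n] = ℓ^(2 g n)` for every prime `ℓ ∤ Q`.

This file contains definitions and `Stmt_*` (all `Prop`s), no `sorry`.  Owners prove the leaves in
`Fermat/Agent/S27/Zeta/H<seat>_<Name>.lean`, namespace `Fermat.Agent.S27.Zeta.H<seat>`.
-/
import Mathlib

set_option autoImplicit false

noncomputable section

namespace Fermat.Agent.S27.Zeta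

universe u v

variable {Pl : Type u}

/-- action of a permutation of the places on divisors: `act σ (∑ n_P P) = ∑ n_P σ(P)` -/
def act (σ : Equiv.Perm Pl) : (Pl →₀ ℤ) →+ (Pl →₀ ℤ) := Finsupp.mapDomain.addMonoidHom σ

theorem act_apply (σ : Equiv.Perm Pl) (D : Pl →₀ ℤ) : act σ D = Finsupp.mapDomain σ D := rfl

@[simp] theorem act_single (σ : Equiv.Perm Pl) (P : Pl) (n : ℤ) :
    act σ (Finsupp.single P n) = Finsupp.single (σ P) n := by
  rw [act_apply, Finsupp.mapDomain_single]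

theorem act_mul (σ τ : Equiv.Perm Pl) (D : Pl →₀ ℤ) : act (σ * τ) D = act σ (act τ D) := by
  rw [act_apply, act_apply, act_apply, ← Finsupp.mapDomain_comp]
  rfl

theorem act_one (D : Pl →₀ ℤ) : act (1 : Equiv.Perm Pl) D = D := by
  rw [act_apply]
  exact Finsupp.mapDomain_id

theorem act_pow (σ : Equiv.Perm Pl) (m : ℕ) (D : Pl →₀ ℤ) : act (σ ^ m) D = (⇑(act σ))^[m] D := by
  induction m with
  | zero => rw [pow_zero, act_one]; rfl
  | succ m ih => rw [pow_succ', act_mul, ih, Function.iterate_succ_apply']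

/-- the degree (sum of the coefficients; all places have degree `1`) -/
def deg : (Pl →₀ ℤ) →+ ℤ := Finsupp.liftAddHom fun _ => AddMonoidHom.id ℤ

@[simp] theorem deg_single (P : Pl) (n : ℤ) : deg (Finsupp.single P n) = n := by
  simp [deg]

theorem deg_act (σ : Equiv.Perm Pl) (D : Pl →₀ ℤ) : deg (act σ D) = deg D := by
  induction D using Finsupp.induction with
  | zero => simp
  | single_add P n D _ _ ih => rw [map_add, map_add, map_add, ih, act_single, deg_single, deg_single]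

/-- the divisor `P + φP + … + φ^(j-1) P` (it is `φ`-invariant if `φ^j P = P`) -/
def orbSum (φ : Equiv.Perm Pl) (j : ℕ) (P : Pl) : Pl →₀ ℤ :=
  ∑ i ∈ Finset.range j, Finsupp.single ((φ ^ i) P) 1

/-- the `φ`-invariant effective divisors of degree `n` -/
def effInv (φ : Equiv.Perm Pl) (n : ℕ) : Set (Pl →₀ ℤ) :=
  {E | 0 ≤ E ∧ act φ E = E ∧ deg E = n}

/-- the places fixed by `φ^j` -/
def fixPts (φ : Equiv.Perm Pl) (j : ℕ) : Set Pl := {P | (φ ^ j) P = P}

/-- The abstract zeta system. -/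
structure ZSys (Pl : Type u) where
  /-- Frobenius on the places -/
  φ : Equiv.Perm Pl
  /-- the degree of a divisor -/
  degree : (Pl →₀ ℤ) →+ ℤ
  /-- the principal divisors -/
  Princ : AddSubgroup (Pl →₀ ℤ)
  /-- `l(D) = dim L(D)` -/
  l : (Pl →₀ ℤ) → ℕ
  /-- the cardinality of the finite field -/
  Q : ℕ
  /-- the genus -/
  g : ℕ
  /-- a canonical divisor -/
  W : Pl →₀ ℤ
  two_le : 2 ≤ Q
  degree_single : ∀ (P : Pl) (n : ℤ), degree (Finsupp.single P n) = n
  orbit : ∀ P : Pl, ∃ m : ℕ, 0 < m ∧ (φ ^ m) P = P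
  fixfin : ∀ m : ℕ, 0 < m → (fixPts φ m).Finite
  fixed : ∃ P₀ : Pl, φ P₀ = P₀
  princ_deg : ∀ D ∈ Princ, degree D = 0
  princ_act : ∀ D ∈ Princ, act φ D ∈ Princ
  l_princ : ∀ D E : Pl →₀ ℤ, E ∈ Princ → l (D + E) = l D
  l_act : ∀ D : Pl →₀ ℤ, l (act φ D) = l D
  l_neg : ∀ D : Pl →₀ ℤ, degree D < 0 → l D = 0
  l_zero : l 0 = 1
  rr : ∀ D : Pl →₀ ℤ, (l D : ℤ) = degree D + 1 - g + l (W - D)
  cnt : ∀ m : ℕ, 0 < m → ∀ D : Pl →₀ ℤ, act (φ ^ m) D - D ∈ Princ →
    Nat.card {E : Pl →₀ ℤ // 0 ≤ E ∧ act (φ ^ m) E = E ∧ E - D ∈ Princ} * (Q ^ m - 1)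
      = Q ^ (m * l D) - 1

namespace ZSys

variable (S : ZSys Pl)

theorem degree_eq : S.degree = deg := by
  apply Finsupp.addHom_ext
  intro P n
  rw [S.degree_single, deg_single]

theorem degree_act (σ : Equiv.Perm Pl) (D : Pl →₀ ℤ) : S.degree (act σ D) = S.degree D := by
  rw [S.degree_eq, deg_act]

/-- the divisors of degree `0` -/
def degZero : AddSubgroup (Pl →₀ ℤ) := S.degree.ker

/-- the group of divisor classes of degree `0` -/
abbrev Cl0 : Type u := S.degZero ⧸ S.Princ.addSubgroupOf S.degZero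

/-- Frobenius on the divisors of degree `0` -/
def frobDegZero : S.degZero →+ S.degZero :=
  ((act S.φ).comp S.degZero.subtype).codRestrict S.degZero fun D => by
    show S.degree (act S.φ D) = 0
    rw [S.degree_act]
    exact D.2

@[simp] theorem coe_frobDegZero (D : S.degZero) :
    (S.frobDegZero D : Pl →₀ ℤ) = act S.φ (D : Pl →₀ ℤ) := rfl

/-- Frobenius on the classes of degree `0` -/
def frob : S.Cl0 →+ S.Cl0 :=
  QuotientAddGroup.map _ _ S.frobDegZero (by
    rintro ⟨D, hD0⟩ hD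
    simp only [AddSubgroup.mem_comap, AddSubgroup.mem_addSubgroupOf] at hD ⊢
    exact S.princ_act D hD)

theorem frob_mk (D : S.degZero) :
    S.frob (QuotientAddGroup.mk D) = QuotientAddGroup.mk (S.frobDegZero D) := rfl

/-- the `φ`-invariant effective divisors of degree `n` of the system -/
def invEff (n : ℕ) : Set (Pl →₀ ℤ) := {E | 0 ≤ E ∧ act S.φ E = E ∧ S.degree E = n}

theorem invEff_eq (n : ℕ) : S.invEff n = effInv S.φ n := by
  unfold invEff effInv
  rw [S.degree_eq]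

/-- the system of `φ^m`, over the field with `Q^m` elements -/
def pow (m : ℕ) (hm : 0 < m) : ZSys Pl where
  φ := S.φ ^ m
  degree := S.degree
  Princ := S.Princ
  l := S.l
  Q := S.Q ^ m
  g := S.g
  W := S.W
  two_le := by
    calc 2 ≤ S.Q := S.two_le
      _ = S.Q ^ 1 := (pow_one _).symm
      _ ≤ S.Q ^ m := Nat.pow_le_pow_right (by have := S.two_le; omega) hm
  degree_single := S.degree_single
  orbit := fun P => by
    obtain ⟨n, hn, h⟩ := S.orbit P
    refine ⟨n, hn, ?_⟩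
    rw [← pow_mul, mul_comm, pow_mul]
    have : ∀ j : ℕ, ((S.φ ^ n) ^ j) P = P := by
      intro j
      induction j with
      | zero => rfl
      | succ j ih => rw [pow_succ, Equiv.Perm.mul_apply, h, ih]
    exact this m
  fixfin := fun j hj => by
    have := S.fixfin (m * j) (Nat.mul_pos hm hj)
    unfold fixPts at this ⊢
    simpa only [← pow_mul] using this
  fixed := by
    obtain ⟨P₀, h⟩ := S.fixed
    refine ⟨P₀, ?_⟩
    have : ∀ j : ℕ, (S.φ ^ j) P₀ = P₀ := by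
      intro j
      induction j with
      | zero => rfl
      | succ j ih => rw [pow_succ, Equiv.Perm.mul_apply, h, ih]
    exact this m
  princ_deg := S.princ_deg
  princ_act := fun D hD => by
    have : ∀ j : ℕ, act (S.φ ^ j) D ∈ S.Princ := by
      intro j
      induction j with
      | zero => rw [pow_zero, act_one]; exact hD
      | succ j ih => rw [pow_succ', act_mul]; exact S.princ_act _ ih
    exact this m
  l_princ := S.l_princ
  l_act := fun D => by
    have : ∀ j : ℕ, S.l (act (S.φ ^ j) D) = S.l D := by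
      intro j
      induction j with
      | zero => rw [pow_zero, act_one]
      | succ j ih => rw [pow_succ', act_mul, S.l_act, ih]
    exact this m
  l_neg := S.l_neg
  l_zero := S.l_zero
  rr := S.rr
  cnt := fun j hj D hD => by
    have e : (S.φ ^ m) ^ j = S.φ ^ (m * j) := (pow_mul S.φ m j).symm
    have eQ : (S.Q ^ m) ^ j = S.Q ^ (m * j) := (pow_mul S.Q m j).symm
    have eQ2 : (S.Q ^ m) ^ (j * S.l D) = S.Q ^ (m * j * S.l D) := by
      rw [← pow_mul, mul_assoc]
    rw [e] at hD ⊢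
    rw [eQ, eQ2]
    exact S.cnt (m * j) (Nat.mul_pos hm hj) D hD

@[simp] theorem pow_φ (m : ℕ) (hm : 0 < m) : (S.pow m hm).φ = S.φ ^ m := rfl
@[simp] theorem pow_Q (m : ℕ) (hm : 0 < m) : (S.pow m hm).Q = S.Q ^ m := rfl
@[simp] theorem pow_g (m : ℕ) (hm : 0 < m) : (S.pow m hm).g = S.g := rfl
@[simp] theorem pow_degree (m : ℕ) (hm : 0 < m) : (S.pow m hm).degree = S.degree := rfl
@[simp] theorem pow_Princ (m : ℕ) (hm : 0 < m) : (S.pow m hm).Princ = S.Princ := rfl

theorem act_mem_degZero (σ : Equiv.Perm Pl) {D : Pl →₀ ℤ} (hD : D ∈ S.degZero) :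
    act σ D ∈ S.degZero := by
  show S.degree (act σ D) = 0
  rw [S.degree_act]
  exact hD

theorem iterate_frob_mk (j : ℕ) (D : S.degZero) :
    (⇑S.frob)^[j] (QuotientAddGroup.mk D : S.Cl0) =
      QuotientAddGroup.mk (⟨act (S.φ ^ j) D, S.act_mem_degZero _ D.2⟩ : S.degZero) := by
  induction j with
  | zero =>
    rw [Function.iterate_zero, id_eq]
    congr 1
    exact Subtype.ext (by simp only [pow_zero, act_one])
  | succ j ih =>
    rw [Function.iterate_succ_apply', ih, frob_mk]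
    congr 1
    exact Subtype.ext (by simp only [coe_frobDegZero, pow_succ', act_mul])

/-- `Cl0` of the power system is `Cl0` (definitionally), and its Frobenius is the `m`-th iterate. -/
theorem pow_frob (m : ℕ) (hm : 0 < m) (x : S.Cl0) :
    (S.pow m hm).frob x = (⇑S.frob)^[m] x := by
  obtain ⟨D, rfl⟩ := QuotientAddGroup.mk_surjective x
  rw [S.iterate_frob_mk m D]
  rfl

end ZSys

/-! ## The leaves -/

/-- **Z-FIN**: finitely many invariant effective divisors of given degree; every class is fixed by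
a power of Frobenius; finitely many classes fixed by a given power; every invariant class of
degree `0` is the class of an invariant divisor.
(Proof: the support of `E ∈ invEff n` is in `⋃_{j ≤ n} fixPts φ j`; a divisor has finite support
and places have finite orbits; `D + g P₀` has `l ≥ 1` by `rr`, so `cnt` gives an invariant
effective divisor in its class, and `invEff g` is finite.) -/
def Stmt_Z_Fin : Prop :=
  ∀ (Pl : Type u) (S : ZSys Pl),
    (∀ n : ℕ, (S.invEff n).Finite) ∧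
    (∀ x : S.Cl0, ∃ m : ℕ, 0 < m ∧ (⇑S.frob)^[m] x = x) ∧
    (∀ m : ℕ, 0 < m → Finite {x : S.Cl0 // (⇑S.frob)^[m] x = x}) ∧
    (∀ x : S.Cl0, S.frob x = x →
      ∃ D : S.degZero, act S.φ (D : Pl →₀ ℤ) = D ∧ QuotientAddGroup.mk D = x)

/-- **Z-LOGDER** (pure combinatorics; the logarithmic derivative of the Euler product
`∑_E χ(E) t^(deg E) = ∏_O (1 - χ(O) t^|O|)⁻¹`): for `χ` multiplicative on invariant effective
divisors, `n A_n(χ) = ∑_{j=1}^n S_j(χ) A_{n-j}(χ)` with `A_n(χ) = ∑_{E ∈ effInv n} χ(E)` and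
`S_j(χ) = ∑_{P ∈ Fix φ^j} χ(P + φP + … + φ^(j-1)P)`.
(Double counting: for `D ∈ effInv n` and an orbit `O` of size `e` with multiplicity `d` in `D`,
the triples `(j = e r, P ∈ O, E = D - r O)`, `1 ≤ r ≤ d`, are `e d = ∑_{P ∈ O} D(P)` in number.) -/
def Stmt_Z_LogDer : Prop :=
  ∀ (Pl : Type u) (φ : Equiv.Perm Pl),
    (∀ P : Pl, ∃ m : ℕ, 0 < m ∧ (φ ^ m) P = P) → (∀ m : ℕ, 0 < m → (fixPts φ m).Finite) →
    ∀ (R : Type v) [CommRing R] (χ : (Pl →₀ ℤ) → R), χ 0 = 1 →
      (∀ D E : Pl →₀ ℤ, 0 ≤ D → 0 ≤ E → act φ D = D → act φ E = E → χ (D + E) = χ D * χ E) →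
      ∀ n : ℕ, (n : R) * (∑ᶠ E ∈ effInv φ n, χ E) =
        ∑ j ∈ Finset.Icc 1 n,
          (∑ᶠ P ∈ fixPts φ j, χ (orbSum φ j P)) * (∑ᶠ E ∈ effInv φ (n - j), χ E)

/-- **Z-RAT** (rationality and the functional equation at the top coefficient):
`(1 - t)(1 - Q t) ∑_n A_n t^n = L(t)` is a polynomial of degree `≤ 2g` with `L(0) = 1`,
coefficient `Q^g` at `t^(2g)`, and `L(1) = h = #(Cl⁰)^φ`.
(Proof: `A_n = ∑_{c} (Q^(l(c)) - 1)/(Q - 1)` over the `h` invariant classes of degree `n`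
(`cnt`, `m = 1`; classes of degree `n` ↔ classes of degree `0` by `P₀`); `l(c) = n + 1 - g` for
`n ≥ 2g - 1`, and in degree `2g - 2`: `l(c) = g - 1` except `l([W]) = g` (`rr`, `l_neg`,
`l_zero`, `l_act`); so `(Q-1) L = (1-t)(1-Qt) F + h Q^g t^(2g-1) (1-t) - h (1-Qt)`,
`F = ∑_{n ≤ 2g-2} (∑_c Q^(l(c))) t^n`.) -/
def Stmt_Z_Rat : Prop :=
  ∀ (Pl : Type u) (S : ZSys Pl),
    ∃ L : Polynomial ℤ, L.natDegree ≤ 2 * S.g ∧ L.coeff (2 * S.g) = (S.Q : ℤ) ^ S.g ∧
      L.coeff 0 = 1 ∧ L.eval 1 = (Nat.card {x : S.Cl0 // S.frob x = x} : ℤ) ∧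
      (L : PowerSeries ℤ) =
        (1 - PowerSeries.X) * (1 - PowerSeries.C (S.Q : ℤ) * PowerSeries.X) *
          PowerSeries.mk fun n => ((S.invEff n).ncard : ℤ)

/-- **Z-EXT** (extension of constants): there is an integer matrix `A` of size `2g` with
`det A = Q^g` and `#(Cl⁰)^(φ^m) = det(1 - A^m)` for all `m ≥ 1`.
(Proof: `A` = companion matrix of `T^(2g) L(1/T)`, `L` from `Stmt_Z_Rat`.  `Stmt_Z_LogDer` with
`χ = 1` for `φ` gives `#Fix(φ^j) = 1 + Q^j - tr(A^j)`; the same for `φ^m` (`S.pow m`) gives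
`t L_m'/L_m = -∑_j tr(A^(m j)) t^j`, so `L_m(t) = det(1 - t A^m)`, and `h_m = L_m(1)`.) -/
def Stmt_Z_Ext : Prop :=
  ∀ (Pl : Type u) (S : ZSys Pl),
    ∃ A : Matrix (Fin (2 * S.g)) (Fin (2 * S.g)) ℤ, A.det = (S.Q : ℤ) ^ S.g ∧
      ∀ m : ℕ, 0 < m →
        (Nat.card {x : S.Cl0 // (⇑S.frob)^[m] x = x} : ℤ) = (1 - A ^ m).det

/-- **Z-NORM** (Lang's theorem for `Pic⁰`, in the form "the norm is surjective"): every
`φ`-invariant class of degree `0` is `y + φy + … + φ^(m-1) y` for a `φ^m`-invariant class `y`.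
(Proof by `L`-functions: if not, there is a character `χ` of the finite group
(invariant divisors)/(norms + principal) which is non-trivial on some invariant class of degree
`0`.  Then `∑_{E ∈ effInv n} χ(E) ζ^n = 0` for `n ≥ 2g - 1` and every `ζ` with `ζ^m = 1`
(`cnt`, `rr`), so `Π(t) = ∏_ζ L(ζ t, χ)` is a polynomial; by `Stmt_Z_LogDer` its logarithmic
derivative is `m ∑_{m ∣ j} #Fix(φ^j) t^j`, the one of `Z_m(t^m)`, `Z_m` the zeta function of
`φ^m`; so `Π(t) = Z_m(t^m)`, which is not a polynomial (`n P₀` is invariant effective).) -/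
def Stmt_Z_Norm : Prop :=
  ∀ (Pl : Type u) (S : ZSys Pl) (m : ℕ), 0 < m → ∀ x : S.Cl0, S.frob x = x →
    ∃ y : S.Cl0, (⇑S.frob)^[m] y = y ∧ ∑ i ∈ Finset.range m, (⇑S.frob)^[i] y = x

/-- **Z-DIVP** (pure group theory): a group which is the union of the finite groups of fixed
points of the powers of `φ`, with finite `ℓ`-torsion and surjective norms, is `ℓ`-divisible.
(Proof: `G/ℓG` is finite (`#G_m/ℓG_m = #G_m[ℓ] ≤ #G[ℓ]`), so `φ^m₀ = 1` on it for some `m₀`;
for `x` fixed by `φ^m`, `m₀ ∣ m`, write `x = ∑_{i<ℓ} φ^(m i) y`: modulo `ℓG` this is `ℓ y = 0`.) -/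
def Stmt_Z_DivP : Prop :=
  ∀ (ℓ : ℕ) [Fact ℓ.Prime] (G : Type u) [AddCommGroup G] (φ : G →+ G),
    (∀ x : G, ∃ m : ℕ, 0 < m ∧ (⇑φ)^[m] x = x) →
    (∀ m : ℕ, 0 < m → Finite {x : G // (⇑φ)^[m] x = x}) →
    Finite {x : G // ℓ • x = 0} →
    (∀ m : ℕ, 0 < m → ∀ x : G, (⇑φ)^[m] x = x →
      ∃ y : G, (⇑φ)^[m * ℓ] y = y ∧ ∑ i ∈ Finset.range ℓ, (⇑φ)^[m * i] y = x) →
    ∀ x : G, ∃ y : G, ℓ • y = x

/-- **Z-MAIN** (assembly: Z-FIN, Z-EXT, Z-NORM for the systems `S.pow m`, Z-DIVP and package IW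
`Stmt_IW_Fin`, `Stmt_IW_Card` of `S27/IW/Defs.lean`): `#Cl⁰[ℓ^n] = ℓ^(2 g n)` for `ℓ ∤ Q`. -/
def Stmt_Z_Main : Prop :=
  ∀ (Pl : Type u) (S : ZSys Pl) (ℓ : ℕ) [Fact ℓ.Prime], ¬ ℓ ∣ S.Q → ∀ n : ℕ,
    Nat.card {x : S.Cl0 // (ℓ ^ n) • x = 0} = ℓ ^ (2 * S.g * n)

end Fermat.Agent.S27.Zeta
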