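/-
S27 char-p half, leaf Z-NORM (helper30), part 2: characters of finite abelian groups.

`norm_char_exists`: for subgroups `H` (finite) and `N` of an abelian group and `x ∈ H`, `x ∉ N`,
there is a function `ψ : G → ℂ`, multiplicative on `H`, trivial on `N ∩ H`, with `ψ x ≠ 1`;
`norm_char_sum_zero`: then `∑_{c ∈ H} ψ c = 0`.
Mathlib only.
-/
import Mathlib

set_option autoImplicit false

namespace Fermat.Agent.S27.Zeta.H30

/-- characters of a finite abelian group separate points -/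
theorem norm_char_sep (G : Type*) [CommGroup G] [Finite G] (a : G) (ha : a ≠ 1) :
    ∃ φ : G →* ℂˣ, φ a ≠ 1 := by
  have h1 : NeZero (Monoid.exponent G) := ⟨Monoid.exponent_ne_zero_of_finite⟩
  have h2 : NeZero ((Monoid.exponent G : ℕ) : ℂ) :=
    ⟨by exact_mod_cast NeZero.ne (Monoid.exponent G)⟩
  exact CommGroup.exists_apply_ne_one_of_hasEnoughRootsOfUnity G ℂ ha

/-- the points fixed by an endomorphism -/
def fixSub {G : Type*} [AddCommGroup G] (f : G →+ G) : AddSubgroup G where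
  carrier := {x | f x = x}
  zero_mem' := map_zero f
  add_mem' := fun {a b} ha hb => by
    show f (a + b) = a + b
    rw [map_add, show f a = a from ha, show f b = b from hb]
  neg_mem' := fun {a} ha => by
    show f (-a) = -a
    rw [map_neg, show f a = a from ha]

theorem mem_fixSub {G : Type*} [AddCommGroup G] (f : G →+ G) (x : G) :
    x ∈ fixSub f ↔ f x = x := Iff.rfl

theorem norm_char_exists {G : Type*} [AddCommGroup G] (H N : AddSubgroup G)
    (hfin : (H : Set G).Finite) (x : G) (hx : x ∈ H) (hxN : x ∉ N) :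
    ∃ ψ : G → ℂ, ψ 0 = 1 ∧ (∀ a ∈ H, ∀ b ∈ H, ψ (a + b) = ψ a * ψ b) ∧
      (∀ a ∈ H, a ∈ N → ψ a = 1) ∧ ψ x ≠ 1 := by
  classical
  have : Finite H := hfin.to_subtype
  have : Finite (H ⧸ N.addSubgroupOf H) := inferInstance
  have : Finite (Multiplicative (H ⧸ N.addSubgroupOf H)) := inferInstance
  have hne : (Multiplicative.ofAdd (QuotientAddGroup.mk ⟨x, hx⟩ : H ⧸ N.addSubgroupOf H)) ≠ 1 := by
    intro h
    have h' : (QuotientAddGroup.mk ⟨x, hx⟩ : H ⧸ N.addSubgroupOf H) = 0 := h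
    rw [QuotientAddGroup.eq_zero_iff] at h'
    exact hxN h'
  obtain ⟨φ, hφ⟩ := norm_char_sep (Multiplicative (H ⧸ N.addSubgroupOf H)) _ hne
  refine ⟨fun g => if h : g ∈ H then
      ((φ (Multiplicative.ofAdd (QuotientAddGroup.mk ⟨g, h⟩ : H ⧸ N.addSubgroupOf H)) : ℂˣ) : ℂ)
      else 1, ?_, ?_, ?_, ?_⟩
  · show (if h : (0 : G) ∈ H then _ else _) = _
    rw [dif_pos H.zero_mem]
    have : (QuotientAddGroup.mk ⟨0, H.zero_mem⟩ : H ⧸ N.addSubgroupOf H) = 0 := rfl
    rw [this, ofAdd_zero, map_one, Units.val_one]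
  · intro a ha b hb
    show (if h : a + b ∈ H then _ else _) = (if h : a ∈ H then _ else _) * (if h : b ∈ H then _ else _)
    rw [dif_pos ha, dif_pos hb, dif_pos (H.add_mem ha hb)]
    have : (QuotientAddGroup.mk ⟨a + b, H.add_mem ha hb⟩ : H ⧸ N.addSubgroupOf H)
        = QuotientAddGroup.mk ⟨a, ha⟩ + QuotientAddGroup.mk ⟨b, hb⟩ := rfl
    rw [this, ofAdd_add, map_mul, Units.val_mul]
  · intro a ha haN
    show (if h : a ∈ H then _ else _) = _
    rw [dif_pos ha]
    have : (QuotientAddGroup.mk ⟨a, ha⟩ : H ⧸ N.addSubgroupOf H) = 0 := by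
      rw [QuotientAddGroup.eq_zero_iff]
      exact haN
    rw [this, ofAdd_zero, map_one, Units.val_one]
  · show (if h : x ∈ H then _ else _) ≠ _
    rw [dif_pos hx]
    intro h
    apply hφ
    exact Units.ext h

theorem norm_char_sum_zero {G : Type*} [AddCommGroup G] (H : AddSubgroup G)
    (hfin : (H : Set G).Finite) (ψ : G → ℂ)
    (hmul : ∀ a ∈ H, ∀ b ∈ H, ψ (a + b) = ψ a * ψ b) (x : G) (hx : x ∈ H) (hψx : ψ x ≠ 1) :
    ∑ c ∈ hfin.toFinset, ψ c = 0 := by
  classical
  have h1 : ∑ c ∈ hfin.toFinset, ψ (c + x) = ∑ c ∈ hfin.toFinset, ψ c := by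
    refine Finset.sum_bij' (fun c _ => c + x) (fun c _ => c - x) ?_ ?_ ?_ ?_ ?_
    · intro c hc
      rw [Set.Finite.mem_toFinset] at hc ⊢
      exact H.add_mem hc hx
    · intro c hc
      rw [Set.Finite.mem_toFinset] at hc ⊢
      exact H.sub_mem hc hx
    · intro c _
      exact add_sub_cancel_right c x
    · intro c _
      exact sub_add_cancel c x
    · intro c _
      rfl
  have h2 : ∑ c ∈ hfin.toFinset, ψ (c + x) = (∑ c ∈ hfin.toFinset, ψ c) * ψ x := by
    rw [Finset.sum_mul]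
    refine Finset.sum_congr rfl fun c hc => ?_
    rw [Set.Finite.mem_toFinset] at hc
    exact hmul c hc x hx
  have h3 : (∑ c ∈ hfin.toFinset, ψ c) * (ψ x - 1) = 0 := by
    rw [mul_sub, mul_one, ← h2, h1, sub_self]
  rcases mul_eq_zero.mp h3 with h | h
  · exact h
  · exact absurd (sub_eq_zero.mp h) hψx

end Fermat.Agent.S27.Zeta.H30
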