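/-
S27 char-p half, leaf Z-NORM (helper30), part 3: the class map `D ↦ [D - deg(D) P₀]`, orbit sums
as norms, and the count of the invariant effective divisors in an invariant class of large degree.
Imports only Mathlib and `Zeta/Defs.lean`.
-/
import Fermat.Agent.S27.Zeta.Defs

set_option autoImplicit false

noncomputable section

namespace Fermat.Agent.S27.Zeta.H30

open Fermat.Agent.S27.Zeta

universe u

variable {Pl : Type u}

/-! ### generalities on `act`, `orbSum`, `effInv` -/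

theorem act_orbSum (σ : Equiv.Perm Pl) (s : ℕ) (P : Pl) (h : (σ ^ s) P = P) :
    act σ (orbSum σ s P) = orbSum σ s P := by
  unfold orbSum
  rw [map_sum]
  have e1 : ∀ i ∈ Finset.range s, act σ (Finsupp.single ((σ ^ i) P) (1 : ℤ))
      = Finsupp.single ((σ ^ (i + 1)) P) (1 : ℤ) := by
    intro i _
    rw [act_single, pow_succ', Equiv.Perm.mul_apply]
  rw [Finset.sum_congr rfl e1]
  have e2 := Finset.sum_range_succ' (fun i => Finsupp.single ((σ ^ i) P) (1 : ℤ)) s
  have e3 := Finset.sum_range_succ (fun i => Finsupp.single ((σ ^ i) P) (1 : ℤ)) s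
  rw [e2] at e3
  simp only [h, pow_zero, Equiv.Perm.coe_one, id_eq] at e3
  exact add_right_cancel e3

theorem orbSum_nonneg (σ : Equiv.Perm Pl) (s : ℕ) (P : Pl) : 0 ≤ orbSum σ s P := by
  unfold orbSum
  refine Finset.sum_nonneg fun i _ => ?_
  intro Q
  rw [Finsupp.coe_zero, Pi.zero_apply]
  classical
  rw [Finsupp.single_apply]
  split_ifs <;> norm_num

theorem deg_orbSum (σ : Equiv.Perm Pl) (s : ℕ) (P : Pl) : deg (orbSum σ s P) = s := by
  unfold orbSum
  rw [map_sum]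
  simp only [deg_single, Finset.sum_const, Finset.card_range, nsmul_eq_mul, mul_one]

/-- `P + φP + … + φ^(ms-1)P = ∑_{a<m} φ^a (P + φ^m P + … + φ^(m(s-1)) P)` -/
theorem orbSum_mul (σ : Equiv.Perm Pl) (m s : ℕ) (P : Pl) :
    orbSum σ (m * s) P = ∑ a ∈ Finset.range m, act (σ ^ a) (orbSum (σ ^ m) s P) := by
  induction s with
  | zero =>
    simp only [mul_zero, orbSum, Finset.range_zero, Finset.sum_empty, map_zero,
      Finset.sum_const_zero]
  | succ s ih =>
    have e1 : orbSum σ (m * (s + 1)) P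
        = orbSum σ (m * s) P + ∑ a ∈ Finset.range m, Finsupp.single ((σ ^ (m * s + a)) P) 1 := by
      unfold orbSum
      rw [mul_add, mul_one, Finset.sum_range_add]
    have e2 : orbSum (σ ^ m) (s + 1) P
        = orbSum (σ ^ m) s P + Finsupp.single (((σ ^ m) ^ s) P) 1 := by
      unfold orbSum
      rw [Finset.sum_range_succ]
    rw [e1, e2, ih]
    simp only [map_add, Finset.sum_add_distrib, act_single]
    congr 1
    refine Finset.sum_congr rfl fun a _ => ?_
    congr 1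
    rw [← pow_mul, ← Equiv.Perm.mul_apply, ← pow_add, add_comm]

theorem effInv_zero (σ : Equiv.Perm Pl) : effInv σ 0 = {0} := by
  ext E
  simp only [effInv, Set.mem_ofPred_eq, Set.mem_singleton_iff]
  constructor
  · rintro ⟨h0, -, hd⟩
    have hd' : E.sum (fun _ n => n) = 0 := by
      have : deg E = E.sum (fun _ n => n) := by
        simp only [deg, Finsupp.liftAddHom_apply]
        rfl
      rw [← this]
      exact_mod_cast hd
    ext P
    rw [Finsupp.coe_zero, Pi.zero_apply]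
    by_contra hP
    have hPs : P ∈ E.support := Finsupp.mem_support_iff.mpr hP
    have hnn : ∀ Q ∈ E.support, (0 : ℤ) ≤ E Q := fun Q _ => h0 Q
    have := (Finset.sum_eq_zero_iff_of_nonneg hnn).mp hd' P hPs
    exact hP this
  · rintro rfl
    refine ⟨le_refl _, map_zero _, ?_⟩
    rw [map_zero]
    rfl

theorem smul_single_mem_effInv (σ : Equiv.Perm Pl) (P₀ : Pl) (h : σ P₀ = P₀) (r : ℕ) :
    Finsupp.single P₀ (r : ℤ) ∈ effInv σ r := by
  refine ⟨?_, ?_, ?_⟩
  · intro Q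
    rw [Finsupp.coe_zero, Pi.zero_apply]
    classical
    rw [Finsupp.single_apply]
    split_ifs
    · exact Int.natCast_nonneg r
    · exact le_refl _
  · rw [act_single, h]
  · rw [deg_single]

theorem fixPts_pow (σ : Equiv.Perm Pl) (m i : ℕ) : fixPts (σ ^ m) i = fixPts σ (m * i) := by
  unfold fixPts
  rw [← pow_mul]

theorem pow_fixed (σ : Equiv.Perm Pl) (P₀ : Pl) (h : σ P₀ = P₀) (j : ℕ) : (σ ^ j) P₀ = P₀ := by
  induction j with
  | zero => rfl
  | succ j ih => rw [pow_succ, Equiv.Perm.mul_apply, h, ih]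

/-! ### the class map -/

variable (S : ZSys Pl)

/-- `D ↦ D - deg(D) P₀`, a divisor of degree `0` -/
def toDegZero (P₀ : Pl) : (Pl →₀ ℤ) →+ S.degZero :=
  AddMonoidHom.codRestrict (AddMonoidHom.id _ - (Finsupp.singleAddHom P₀).comp S.degree) S.degZero
    (fun D => by
      show S.degree (D - Finsupp.single P₀ (S.degree D)) = 0
      rw [map_sub, S.degree_single, sub_self])

theorem coe_toDegZero (P₀ : Pl) (D : Pl →₀ ℤ) :
    ((toDegZero S P₀ D : S.degZero) : Pl →₀ ℤ) = D - Finsupp.single P₀ (S.degree D) := rfl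

/-- the class `[D - deg(D) P₀]` -/
def cls (P₀ : Pl) : (Pl →₀ ℤ) →+ S.Cl0 :=
  (QuotientAddGroup.mk' (S.Princ.addSubgroupOf S.degZero)).comp (toDegZero S P₀)

theorem cls_apply (P₀ : Pl) (D : Pl →₀ ℤ) :
    cls S P₀ D = QuotientAddGroup.mk (toDegZero S P₀ D) := rfl

theorem cls_act (P₀ : Pl) (hP₀ : S.φ P₀ = P₀) (D : Pl →₀ ℤ) :
    cls S P₀ (act S.φ D) = S.frob (cls S P₀ D) := by
  rw [cls_apply, cls_apply, S.frob_mk]
  congr 1
  apply Subtype.ext
  rw [coe_toDegZero, ZSys.coe_frobDegZero, coe_toDegZero, map_sub, act_single, hP₀, S.degree_act]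

theorem cls_act_pow (P₀ : Pl) (hP₀ : S.φ P₀ = P₀) (i : ℕ) (D : Pl →₀ ℤ) :
    cls S P₀ (act (S.φ ^ i) D) = (⇑S.frob)^[i] (cls S P₀ D) := by
  induction i with
  | zero => rw [pow_zero, act_one, Function.iterate_zero, id_eq]
  | succ i ih => rw [pow_succ', act_mul, cls_act S P₀ hP₀, ih, Function.iterate_succ_apply']

theorem cls_mk (P₀ : Pl) (D : S.degZero) :
    cls S P₀ (D : Pl →₀ ℤ) = QuotientAddGroup.mk D := by
  rw [cls_apply]
  congr 1
  apply Subtype.ext
  rw [coe_toDegZero]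
  have : S.degree (D : Pl →₀ ℤ) = 0 := D.2
  rw [this, Finsupp.single_zero, sub_zero]

theorem cls_eq_zero_iff (P₀ : Pl) (D : Pl →₀ ℤ) (hD : S.degree D = 0) :
    cls S P₀ D = 0 ↔ D ∈ S.Princ := by
  rw [cls_apply, QuotientAddGroup.eq_zero_iff, AddSubgroup.mem_addSubgroupOf, coe_toDegZero, hD,
    Finsupp.single_zero, sub_zero]

theorem cls_eq_iff (P₀ : Pl) (D D' : Pl →₀ ℤ) (h : S.degree D = S.degree D') :
    cls S P₀ D = cls S P₀ D' ↔ D - D' ∈ S.Princ := by
  rw [← sub_eq_zero, ← map_sub, cls_eq_zero_iff S P₀ (D - D') (by rw [map_sub, h, sub_self])]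

theorem cls_single (P₀ : Pl) (n : ℤ) : cls S P₀ (Finsupp.single P₀ n) = 0 := by
  rw [cls_apply]
  have : toDegZero S P₀ (Finsupp.single P₀ n) = 0 := by
    apply Subtype.ext
    rw [coe_toDegZero, S.degree_single, sub_self]
    rfl
  rw [this]
  rfl

/-! ### Riemann–Roch in large degree and the count -/

theorem degree_W : S.degree S.W = 2 * (S.g : ℤ) - 2 := by
  have h0 := S.rr 0
  have hW := S.rr S.W
  rw [map_zero, sub_zero, S.l_zero] at h0
  rw [sub_self, S.l_zero] at hW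
  push_cast at h0 hW
  omega

theorem l_large (D : Pl →₀ ℤ) (hD : 2 * (S.g : ℤ) - 1 ≤ S.degree D) :
    (S.l D : ℤ) = S.degree D + 1 - S.g := by
  have h := S.rr D
  have hneg : S.degree (S.W - D) < 0 := by
    rw [map_sub, degree_W]
    omega
  rw [S.l_neg _ hneg] at h
  push_cast at h
  omega

/-- the invariant effective divisors of degree `n` in the class `c` -/
def effCls (P₀ : Pl) (n : ℕ) (c : S.Cl0) : Set (Pl →₀ ℤ) :=
  {E | E ∈ effInv S.φ n ∧ cls S P₀ E = c}

theorem effCls_eq (P₀ : Pl) (n : ℕ) (D : Pl →₀ ℤ) (hD : S.degree D = n) :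
    effCls S P₀ n (cls S P₀ D)
      = {E | 0 ≤ E ∧ act (S.φ ^ 1) E = E ∧ E - D ∈ S.Princ} := by
  ext E
  simp only [effCls, effInv, Set.mem_ofPred_eq, pow_one]
  rw [← S.degree_eq]
  constructor
  · rintro ⟨⟨h0, hact, hdeg⟩, hc⟩
    exact ⟨h0, hact, (cls_eq_iff S P₀ E D (by rw [hdeg, hD])).mp hc⟩
  · rintro ⟨h0, hact, hp⟩
    have hdeg : S.degree E = S.degree D := by
      have := S.princ_deg _ hp
      rw [map_sub] at this
      exact sub_eq_zero.mp this
    exact ⟨⟨h0, hact, by rw [hdeg, hD]⟩, (cls_eq_iff S P₀ E D hdeg).mpr hp⟩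

/-- the count in large degree: it does not depend on the (invariant) class -/
theorem effCls_count (P₀ : Pl) (hP₀ : S.φ P₀ = P₀) (n : ℕ) (hn : 2 * (S.g : ℤ) - 1 ≤ n)
    (D₀ : S.degZero) (hD₀ : act S.φ (D₀ : Pl →₀ ℤ) = D₀) :
    (effCls S P₀ n (QuotientAddGroup.mk D₀)).ncard * (S.Q - 1)
      = S.Q ^ ((n : ℤ) + 1 - S.g).toNat - 1 := by
  set D : Pl →₀ ℤ := (D₀ : Pl →₀ ℤ) + Finsupp.single P₀ (n : ℤ) with hDdef
  have hdeg : S.degree D = n := by
    rw [hDdef, map_add, S.degree_single]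
    have : S.degree (D₀ : Pl →₀ ℤ) = 0 := D₀.2
    rw [this, zero_add]
  have hact : act S.φ D = D := by
    rw [hDdef, map_add, hD₀, act_single, hP₀]
  have hcls : cls S P₀ D = QuotientAddGroup.mk D₀ := by
    rw [hDdef, map_add, cls_single, add_zero, cls_mk]
  have hl : S.l D = ((n : ℤ) + 1 - S.g).toNat := by
    have := l_large S D (by rw [hdeg]; exact hn)
    rw [hdeg] at this
    omega
  have hcnt := S.cnt 1 Nat.one_pos D (by rw [pow_one, hact, sub_self]; exact S.Princ.zero_mem)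
  have hQ1 : S.Q ^ 1 = S.Q := pow_one _
  rw [one_mul, hl, hQ1] at hcnt
  rw [← hcls, effCls_eq S P₀ n D hdeg, ← hcnt]
  congr 1

theorem effCls_ncard_eq (P₀ : Pl) (hP₀ : S.φ P₀ = P₀) (n : ℕ) (hn : 2 * (S.g : ℤ) - 1 ≤ n)
    (D₀ D₁ : S.degZero) (hD₀ : act S.φ (D₀ : Pl →₀ ℤ) = D₀) (hD₁ : act S.φ (D₁ : Pl →₀ ℤ) = D₁) :
    (effCls S P₀ n (QuotientAddGroup.mk D₀)).ncard
      = (effCls S P₀ n (QuotientAddGroup.mk D₁)).ncard := by
  have h0 := effCls_count S P₀ hP₀ n hn D₀ hD₀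
  have h1 := effCls_count S P₀ hP₀ n hn D₁ hD₁
  have hQ : 0 < S.Q - 1 := by have := S.two_le; omega
  exact Nat.eq_of_mul_eq_mul_right hQ (h0.trans h1.symm)

end Fermat.Agent.S27.Zeta.H30
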