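/-
S27 char-p half, leaf Z-NORM (helper30), part 1: the power-series argument.

`norm_ps_contra`: two sequences `A` (the twisted `L`-function, a polynomial) and `z` (the zeta
function of `φ^m`, not a polynomial) which satisfy the logarithmic-derivative recursions with
`S j = c j` for `m ∣ j` cannot both exist.  (`∏_{ζ^m = 1} L(ζ t) = Z_m(t^m)`.)
Mathlib only.
-/
import Mathlib

set_option autoImplicit false

namespace Fermat.Agent.S27.Zeta.H30

open PowerSeries Finset

/-- uniqueness of the solution of `F' = T F` with given constant coefficient -/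
theorem ps_ode_unique (T F G : PowerSeries ℂ) (hF : PowerSeries.derivative ℂ F = T * F)
    (hG : PowerSeries.derivative ℂ G = T * G)
    (h0 : PowerSeries.coeff 0 F = PowerSeries.coeff 0 G) : F = G := by
  have key : ∀ n : ℕ, ∀ k : ℕ, k ≤ n → PowerSeries.coeff k F = PowerSeries.coeff k G := by
    intro n
    induction n with
    | zero =>
      intro k hk
      have : k = 0 := by omega
      rw [this]; exact h0
    | succ n ih =>
      intro k hk
      rcases Nat.lt_or_ge k (n + 1) with h | h
      · exact ih k (by omega)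
      · have hk' : k = n + 1 := by omega
        rw [hk']
        have h1 := congrArg (PowerSeries.coeff n) hF
        have h2 := congrArg (PowerSeries.coeff n) hG
        rw [PowerSeries.coeff_derivative, PowerSeries.coeff_mul] at h1 h2
        have h3 : ∑ p ∈ antidiagonal n, PowerSeries.coeff p.1 T * PowerSeries.coeff p.2 F
            = ∑ p ∈ antidiagonal n, PowerSeries.coeff p.1 T * PowerSeries.coeff p.2 G := by
          refine Finset.sum_congr rfl fun p hp => ?_
          have hp' : p.1 + p.2 = n := Finset.HasAntidiagonal.mem_antidiagonal.mp hp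
          rw [ih p.2 (by omega)]
        have h4 : PowerSeries.coeff (n + 1) F * ((n : ℂ) + 1)
            = PowerSeries.coeff (n + 1) G * ((n : ℂ) + 1) := by rw [h1, h2, h3]
        have h5 : ((n : ℂ) + 1) ≠ 0 := by exact_mod_cast Nat.succ_ne_zero n
        exact mul_right_cancel₀ h5 h4
  ext n
  exact key n n le_rfl

/-- the logarithmic derivative of a product -/
theorem ps_ode_prod {ι : Type*} (s : Finset ι) (F T : ι → PowerSeries ℂ)
    (h : ∀ k ∈ s, PowerSeries.derivative ℂ (F k) = T k * F k) :
    PowerSeries.derivative ℂ (∏ k ∈ s, F k) = (∑ k ∈ s, T k) * ∏ k ∈ s, F k := by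
  classical
  induction s using Finset.induction_on with
  | empty =>
    rw [Finset.prod_empty, Finset.sum_empty, zero_mul]
    exact PowerSeries.derivative_one
  | insert a s ha ih =>
    rw [Finset.prod_insert ha, Finset.sum_insert ha, Derivation.leibniz,
      ih (fun k hk => h k (Finset.mem_insert_of_mem hk)), h a (Finset.mem_insert_self a s)]
    simp only [smul_eq_mul]
    ring

/-- the logarithmic derivative of `F(a t)` -/
theorem ps_ode_rescale (a : ℂ) (F T : PowerSeries ℂ)
    (h : PowerSeries.derivative ℂ F = T * F) :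
    PowerSeries.derivative ℂ (PowerSeries.rescale a F)
      = (PowerSeries.C a * PowerSeries.rescale a T) * PowerSeries.rescale a F := by
  have h1 : PowerSeries.derivative ℂ (PowerSeries.rescale a F)
      = PowerSeries.C a * PowerSeries.rescale a (PowerSeries.derivative ℂ F) := by
    ext n
    rw [PowerSeries.coeff_derivative, PowerSeries.coeff_rescale, PowerSeries.coeff_C_mul,
      PowerSeries.coeff_rescale, PowerSeries.coeff_derivative]
    ring
  rw [h1, h, map_mul]
  ring

/-- the logarithmic derivative of `F(t^m)` -/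
theorem ps_ode_expand (m : ℕ) (hm : m ≠ 0) (F T : PowerSeries ℂ)
    (h : PowerSeries.derivative ℂ F = T * F) :
    PowerSeries.derivative ℂ (PowerSeries.expand m hm F)
      = (PowerSeries.C (m : ℂ) * PowerSeries.X ^ (m - 1) * PowerSeries.expand m hm T)
          * PowerSeries.expand m hm F := by
  have hX : PowerSeries.derivative ℂ ((PowerSeries.X : PowerSeries ℂ) ^ m)
      = PowerSeries.C (m : ℂ) * PowerSeries.X ^ (m - 1) := by
    rw [PowerSeries.derivative_pow, PowerSeries.derivative_X, mul_one,
      map_natCast (PowerSeries.C (R := ℂ)) m]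
  rw [PowerSeries.expand_apply, PowerSeries.derivative_subst (PowerSeries.HasSubst.X_pow hm), h,
    ← PowerSeries.expand_apply (hp := hm), ← PowerSeries.expand_apply (hp := hm), map_mul, hX]
  ring

/-- a power series with finitely many non-zero coefficients -/
def PSFin (F : PowerSeries ℂ) : Prop := ∃ N : ℕ, ∀ n : ℕ, N ≤ n → PowerSeries.coeff n F = 0

theorem psFin_one : PSFin 1 := by
  refine ⟨1, fun n hn => ?_⟩
  rw [PowerSeries.coeff_one, if_neg (by omega)]

theorem psFin_mul {F G : PowerSeries ℂ} (hF : PSFin F) (hG : PSFin G) : PSFin (F * G) := by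
  obtain ⟨N, hN⟩ := hF
  obtain ⟨N', hN'⟩ := hG
  refine ⟨N + N', fun n hn => ?_⟩
  rw [PowerSeries.coeff_mul]
  refine Finset.sum_eq_zero fun p hp => ?_
  have hp' : p.1 + p.2 = n := Finset.HasAntidiagonal.mem_antidiagonal.mp hp
  rcases Nat.lt_or_ge p.1 N with h | h
  · rw [hN' p.2 (by omega), mul_zero]
  · rw [hN p.1 h, zero_mul]

theorem psFin_prod {ι : Type*} (s : Finset ι) (F : ι → PowerSeries ℂ)
    (h : ∀ k ∈ s, PSFin (F k)) : PSFin (∏ k ∈ s, F k) := by
  classical
  induction s using Finset.induction_on with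
  | empty => rw [Finset.prod_empty]; exact psFin_one
  | insert a s ha ih =>
    rw [Finset.prod_insert ha]
    exact psFin_mul (h a (Finset.mem_insert_self a s))
      (ih fun k hk => h k (Finset.mem_insert_of_mem hk))

theorem psFin_rescale (a : ℂ) {F : PowerSeries ℂ} (hF : PSFin F) :
    PSFin (PowerSeries.rescale a F) := by
  obtain ⟨N, hN⟩ := hF
  refine ⟨N, fun n hn => ?_⟩
  rw [PowerSeries.coeff_rescale, hN n hn, mul_zero]

/-- `∑_{k < m} (ω^k)^j = m` or `0` according as `m ∣ j` or not -/
theorem sum_pow_primitive (m : ℕ) (ω : ℂ) (hω : IsPrimitiveRoot ω m) (j : ℕ) :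
    ∑ k ∈ range m, (ω ^ k) ^ j = if m ∣ j then (m : ℂ) else 0 := by
  have h1 : ∀ k : ℕ, (ω ^ k) ^ j = (ω ^ j) ^ k := fun k => by
    rw [← pow_mul, ← pow_mul, mul_comm]
  simp only [h1]
  split_ifs with hd
  · have : ω ^ j = 1 := (hω.pow_eq_one_iff_dvd j).mpr hd
    simp [this]
  · have hne : ω ^ j ≠ 1 := fun h => hd ((hω.pow_eq_one_iff_dvd j).mp h)
    have h2 : (∑ k ∈ range m, (ω ^ j) ^ k) * (ω ^ j - 1) = 0 := by
      rw [geom_sum_mul, ← pow_mul, mul_comm, pow_mul, hω.pow_eq_one, one_pow, sub_self]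
    rcases mul_eq_zero.mp h2 with h | h
    · exact h
    · exact absurd (sub_eq_zero.mp h) hne

/-- the recursion `n A_n = ∑_{j=1}^n S_j A_{n-j}` as a differential equation -/
theorem ps_ode_of_rec (A S : ℕ → ℂ)
    (h : ∀ n : ℕ, (n : ℂ) * A n = ∑ j ∈ Finset.Icc 1 n, S j * A (n - j)) :
    PowerSeries.derivative ℂ (PowerSeries.mk A)
      = PowerSeries.mk (fun i => S (i + 1)) * PowerSeries.mk A := by
  ext n
  rw [PowerSeries.coeff_derivative, PowerSeries.coeff_mk, PowerSeries.coeff_mul]
  simp only [PowerSeries.coeff_mk]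
  rw [Finset.Nat.sum_antidiagonal_eq_sum_range_succ (fun i j => S (i + 1) * A j) n]
  have h1 := h (n + 1)
  have h2 : ∑ j ∈ Finset.Icc 1 (n + 1), S j * A (n + 1 - j)
      = ∑ k ∈ Finset.range (n + 1), S (k + 1) * A (n - k) := by
    have e : Finset.Icc 1 (n + 1) = (Finset.range (n + 1)).image (fun k => k + 1) := by
      ext j
      simp only [Finset.mem_Icc, Finset.mem_image, Finset.mem_range]
      constructor
      · intro hj
        exact ⟨j - 1, by omega, by omega⟩
      · rintro ⟨k, hk, rfl⟩
        omega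
    rw [e, Finset.sum_image (fun a _ b _ h => by simpa using h)]
    refine Finset.sum_congr rfl fun k _ => ?_
    congr 2
    omega
  rw [← h2, ← h1]
  push_cast
  ring

/-- **The power-series contradiction.** -/
theorem norm_ps_contra (m : ℕ) (hm : 0 < m) (A S z c : ℕ → ℂ)
    (hA : ∀ n : ℕ, (n : ℂ) * A n = ∑ j ∈ Finset.Icc 1 n, S j * A (n - j))
    (hz : ∀ r : ℕ, (r : ℂ) * z r = ∑ i ∈ Finset.Icc 1 r, c (m * i) * z (r - i))
    (hS : ∀ j : ℕ, 0 < j → m ∣ j → S j = c j)
    (hA0 : A 0 = 1) (hz0 : z 0 = 1)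
    (hAfin : ∃ N : ℕ, ∀ n : ℕ, N ≤ n → A n = 0)
    (hznz : ∀ r : ℕ, z r ≠ 0) : False := by
  have hm0 : m ≠ 0 := by omega
  obtain ⟨ω, hω⟩ : ∃ ω : ℂ, IsPrimitiveRoot ω m := ⟨_, Complex.isPrimitiveRoot_exp m hm0⟩
  set F : PowerSeries ℂ := PowerSeries.mk A with hFdef
  set T : PowerSeries ℂ := PowerSeries.mk (fun i => S (i + 1)) with hTdef
  set Zm : PowerSeries ℂ := PowerSeries.mk z with hZmdef
  set Tm : PowerSeries ℂ := PowerSeries.mk (fun i => c (m * (i + 1))) with hTmdef
  have hF : PowerSeries.derivative ℂ F = T * F := ps_ode_of_rec A S hA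
  have hZm : PowerSeries.derivative ℂ Zm = Tm * Zm :=
    ps_ode_of_rec z (fun j => c (m * j)) hz
  have hPi := ps_ode_prod (range m) (fun k => PowerSeries.rescale (ω ^ k) F)
    (fun k => PowerSeries.C (ω ^ k) * PowerSeries.rescale (ω ^ k) T)
    (fun k _ => ps_ode_rescale (ω ^ k) F T hF)
  have hZ := ps_ode_expand m hm0 Zm Tm hZm
  have hT : (∑ k ∈ range m, PowerSeries.C (ω ^ k) * PowerSeries.rescale (ω ^ k) T)
      = PowerSeries.C (m : ℂ) * PowerSeries.X ^ (m - 1) * PowerSeries.expand m hm0 Tm := by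
    ext i
    rw [map_sum, mul_assoc, PowerSeries.coeff_C_mul, PowerSeries.coeff_X_pow_mul',
      PowerSeries.coeff_expand]
    simp only [PowerSeries.coeff_C_mul, PowerSeries.coeff_rescale, hTdef, hTmdef,
      PowerSeries.coeff_mk]
    have e1 : ∀ k : ℕ, ω ^ k * ((ω ^ k) ^ i * S (i + 1)) = (ω ^ k) ^ (i + 1) * S (i + 1) :=
      fun k => by ring
    simp only [e1]
    rw [← Finset.sum_mul, sum_pow_primitive m ω hω (i + 1)]
    by_cases hd : m ∣ i + 1
    · obtain ⟨q, hq⟩ := hd
      have hq1 : 1 ≤ q := by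
        rcases Nat.eq_zero_or_pos q with h | h
        · rw [h, mul_zero] at hq; omega
        · exact h
      have hi : i - (m - 1) = m * (q - 1) := by
        have : m * q = m * (q - 1) + m := by
          conv_lhs => rw [show q = (q - 1) + 1 by omega, mul_add, mul_one]
        omega
      have hle : m - 1 ≤ i := by
        have : m ≤ m * q := Nat.le_mul_of_pos_right m hq1
        omega
      rw [if_pos ⟨q, hq⟩, if_pos hle, if_pos (hi ▸ Dvd.intro _ rfl), hi,
        Nat.mul_div_cancel_left _ hm, hS (i + 1) (by omega) ⟨q, hq⟩]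
      congr 2
      rw [hq]
      congr 1
      omega
    · rw [if_neg hd, zero_mul]
      by_cases hle : m - 1 ≤ i
      · rw [if_pos hle]
        have hnd : ¬ m ∣ i - (m - 1) := by
          intro hd'
          apply hd
          have : i + 1 = (i - (m - 1)) + m := by omega
          rw [this]
          exact Dvd.dvd.add hd' (dvd_refl m)
        rw [if_neg hnd, mul_zero]
      · rw [if_neg hle, mul_zero]
  rw [hT] at hPi
  have h0 : PowerSeries.coeff 0 (∏ k ∈ range m, PowerSeries.rescale (ω ^ k) F)
      = PowerSeries.coeff 0 (PowerSeries.expand m hm0 Zm) := by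
    rw [PowerSeries.coeff_zero_eq_constantCoeff_apply, PowerSeries.coeff_zero_eq_constantCoeff_apply,
      PowerSeries.constantCoeff_expand, map_prod]
    have e2 : ∀ k ∈ range m, PowerSeries.constantCoeff (PowerSeries.rescale (ω ^ k) F) = 1 := by
      intro k _
      rw [← PowerSeries.coeff_zero_eq_constantCoeff_apply, PowerSeries.coeff_rescale, pow_zero,
        one_mul, hFdef, PowerSeries.coeff_mk, hA0]
    rw [Finset.prod_congr rfl e2, Finset.prod_const_one,
      ← PowerSeries.coeff_zero_eq_constantCoeff_apply, hZmdef, PowerSeries.coeff_mk, hz0]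
  have hEq := ps_ode_unique _ _ _ hPi hZ h0
  have hfin : PSFin (∏ k ∈ range m, PowerSeries.rescale (ω ^ k) F) := by
    refine psFin_prod _ _ fun k _ => psFin_rescale _ ?_
    obtain ⟨N, hN⟩ := hAfin
    exact ⟨N, fun n hn => by rw [hFdef, PowerSeries.coeff_mk]; exact hN n hn⟩
  obtain ⟨N, hN⟩ := hfin
  have h1 := hN (m * N) (Nat.le_mul_of_pos_left N hm)
  rw [hEq, PowerSeries.coeff_expand_mul, hZmdef, PowerSeries.coeff_mk] at h1
  exact hznz N h1

end Fermat.Agent.S27.Zeta.H30
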