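/-
S27 char-p half, leaf **Z-NORM** (helper30): Lang's theorem for `Pic⁰` in the form "the norm
`(Cl⁰)^(φ^m) → (Cl⁰)^φ` is surjective", from Z-FIN and Z-LOGDER.

`z_norm_of : Stmt_Z_Fin → Stmt_Z_LogDer → Stmt_Z_Norm`.

Proof (by `L`-functions): if `x` is an invariant class which is not a norm, take a character `ψ`
of the finite group `(Cl⁰)^φ`, trivial on the norms, with `ψ x ≠ 1`, and `χ(D) = ψ[D - deg(D)P₀]`.
Then `A_n(χ) = ∑_{E ∈ effInv n} χ(E) = 0` for `n ≥ 2g - 1` (`cnt`, `rr`), and `χ = 1` on the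
orbit sums `P + … + φ^(j-1)P` with `m ∣ j` (they are norms); `norm_ps_contra` concludes.
-/
import Fermat.Agent.S27.Zeta.H30_NormPS
import Fermat.Agent.S27.Zeta.H30_NormChar
import Fermat.Agent.S27.Zeta.H30_NormCls

set_option autoImplicit false

noncomputable section

namespace Fermat.Agent.S27.Zeta.H30

open Fermat.Agent.S27.Zeta

universe u

variable {Pl : Type u} (S : ZSys Pl)

/-- the iterates of Frobenius on the classes, as homomorphisms -/
def frobIter : ℕ → (S.Cl0 →+ S.Cl0)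
  | 0 => AddMonoidHom.id _
  | (i + 1) => S.frob.comp (frobIter i)

theorem frobIter_apply (i : ℕ) (y : S.Cl0) : frobIter S i y = (⇑S.frob)^[i] y := by
  induction i with
  | zero => rfl
  | succ i ih =>
    rw [Function.iterate_succ_apply', ← ih]
    rfl

/-- the norm `y ↦ y + φy + … + φ^(m-1) y` -/
def nmHom (m : ℕ) : S.Cl0 →+ S.Cl0 := ∑ i ∈ Finset.range m, frobIter S i

theorem nmHom_apply (m : ℕ) (y : S.Cl0) :
    nmHom S m y = ∑ i ∈ Finset.range m, (⇑S.frob)^[i] y := by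
  unfold nmHom
  rw [AddMonoidHom.finsetSum_apply]
  exact Finset.sum_congr rfl fun i _ => frobIter_apply S i y

theorem cls_fixed (P₀ : Pl) (hP₀ : S.φ P₀ = P₀) (D : Pl →₀ ℤ) (hD : act S.φ D = D) :
    cls S P₀ D ∈ fixSub S.frob := by
  rw [mem_fixSub, ← cls_act S P₀ hP₀, hD]

/-- the class of an orbit sum `P + φP + … + φ^(ms-1) P` is a norm -/
theorem cls_orbSum_norm (P₀ : Pl) (hP₀ : S.φ P₀ = P₀) (m s : ℕ) (P : Pl)
    (hP : (S.φ ^ (m * s)) P = P) :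
    cls S P₀ (orbSum S.φ (m * s) P)
      ∈ AddSubgroup.map (nmHom S m) (fixSub (frobIter S m)) := by
  refine ⟨cls S P₀ (orbSum (S.φ ^ m) s P), ?_, ?_⟩
  · show frobIter S m _ = _
    rw [frobIter_apply, ← cls_act_pow S P₀ hP₀,
      act_orbSum (S.φ ^ m) s P (by rw [← pow_mul]; exact hP)]
  · rw [nmHom_apply, orbSum_mul, map_sum]
    exact Finset.sum_congr rfl fun a _ => (cls_act_pow S P₀ hP₀ a _).symm

/-- `A_n(χ) = 0` in large degree -/
theorem twisted_sum_zero (P₀ : Pl) (hP₀ : S.φ P₀ = P₀)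
    (hrep : ∀ x : S.Cl0, S.frob x = x →
      ∃ D : S.degZero, act S.φ (D : Pl →₀ ℤ) = D ∧ QuotientAddGroup.mk D = x)
    (hHfin : ((fixSub S.frob : AddSubgroup S.Cl0) : Set S.Cl0).Finite)
    (ψ : S.Cl0 → ℂ) (hsum : ∑ c ∈ hHfin.toFinset, ψ c = 0)
    (n : ℕ) (hn : 2 * (S.g : ℤ) - 1 ≤ n) (hfin : (effInv S.φ n).Finite) :
    ∑ᶠ E ∈ effInv S.φ n, ψ (cls S P₀ E) = 0 := by
  classical
  rw [finsum_mem_eq_finite_toFinset_sum _ hfin]
  have hmaps : ∀ E ∈ hfin.toFinset, cls S P₀ E ∈ hHfin.toFinset := by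
    intro E hE
    rw [Set.Finite.mem_toFinset] at hE ⊢
    exact cls_fixed S P₀ hP₀ E hE.2.1
  rw [← Finset.sum_fiberwise_of_maps_to hmaps]
  have hfib : ∀ c ∈ hHfin.toFinset,
      ∑ E ∈ hfin.toFinset with cls S P₀ E = c, ψ (cls S P₀ E)
        = ((effCls S P₀ n 0).ncard : ℂ) * ψ c := by
    intro c hc
    rw [Set.Finite.mem_toFinset] at hc
    have hc' : S.frob c = c := hc
    have e1 : ∑ E ∈ hfin.toFinset with cls S P₀ E = c, ψ (cls S P₀ E)
        = ∑ E ∈ hfin.toFinset with cls S P₀ E = c, ψ c := by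
      refine Finset.sum_congr rfl fun E hE => ?_
      rw [(Finset.mem_filter.mp hE).2]
    rw [e1, Finset.sum_const, nsmul_eq_mul]
    congr 2
    have e2 : (((hfin.toFinset.filter fun E => cls S P₀ E = c) : Finset (Pl →₀ ℤ)) :
        Set (Pl →₀ ℤ)) = effCls S P₀ n c := by
      ext E
      simp only [Finset.coe_filter, Set.Finite.mem_toFinset, effCls, Set.mem_ofPred_eq]
    rw [← Set.ncard_coe_finset, e2]
    obtain ⟨D₀, hD₀, hD₀c⟩ := hrep c hc'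
    rw [← hD₀c]
    have h0 : (0 : S.Cl0) = QuotientAddGroup.mk (0 : S.degZero) := rfl
    rw [h0]
    exact effCls_ncard_eq S P₀ hP₀ n hn D₀ 0 hD₀ (map_zero _)
  rw [Finset.sum_congr rfl hfib, ← Finset.mul_sum, hsum, mul_zero]

/-- the number of invariant effective divisors of degree `r` is not `0` -/
theorem count_ne_zero (σ : Equiv.Perm Pl) (P₀ : Pl) (hP₀ : σ P₀ = P₀) (r : ℕ)
    (hfin : (effInv σ r).Finite) : ∑ᶠ _E ∈ effInv σ r, (1 : ℂ) ≠ 0 := by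
  rw [finsum_mem_eq_finite_toFinset_sum _ hfin, Finset.sum_const, nsmul_eq_mul, mul_one]
  have hmem : Finsupp.single P₀ (r : ℤ) ∈ hfin.toFinset := by
    rw [Set.Finite.mem_toFinset]
    exact smul_single_mem_effInv σ P₀ hP₀ r
  have : hfin.toFinset.card ≠ 0 := Finset.card_ne_zero_of_mem hmem
  exact_mod_cast this

/-- **Z-NORM** from Z-FIN and Z-LOGDER. -/
theorem z_norm_of (hFin : Stmt_Z_Fin.{u}) (hLog : Stmt_Z_LogDer.{u, 0}) : Stmt_Z_Norm.{u} := by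
  intro Pl S m hm x hx
  by_contra hcon
  obtain ⟨P₀, hP₀⟩ := S.fixed
  obtain ⟨hfinE, -, hfinFix, hrep⟩ := hFin Pl S
  obtain ⟨hfinEm, -, -, -⟩ := hFin Pl (S.pow m hm)
  have hfinE' : ∀ n : ℕ, (effInv S.φ n).Finite := fun n => by
    rw [← S.invEff_eq]; exact hfinE n
  have hfinEm' : ∀ n : ℕ, (effInv (S.φ ^ m) n).Finite := fun n => by
    have := hfinEm n
    rw [(S.pow m hm).invEff_eq] at this
    exact this
  have hHfin : ((fixSub S.frob : AddSubgroup S.Cl0) : Set S.Cl0).Finite := by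
    have h1 : Finite {y : S.Cl0 // (⇑S.frob)^[1] y = y} := hfinFix 1 Nat.one_pos
    exact Set.finite_coe_iff.mp h1
  have hxH : x ∈ fixSub S.frob := hx
  have hxN : x ∉ AddSubgroup.map (nmHom S m) (fixSub (frobIter S m)) := by
    rintro ⟨y, hy, hyx⟩
    apply hcon
    refine ⟨y, ?_, ?_⟩
    · rw [← frobIter_apply]; exact hy
    · rw [← nmHom_apply]; exact hyx
  obtain ⟨ψ, hψ0, hψmul, hψN, hψx⟩ := norm_char_exists (fixSub S.frob)
    (AddSubgroup.map (nmHom S m) (fixSub (frobIter S m))) hHfin x hxH hxN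
  have hsum := norm_char_sum_zero (fixSub S.frob) hHfin ψ hψmul x hxH hψx
  have hχ0 : ψ (cls S P₀ 0) = 1 := by rw [map_zero]; exact hψ0
  have hχmul : ∀ D E : Pl →₀ ℤ, 0 ≤ D → 0 ≤ E → act S.φ D = D → act S.φ E = E →
      ψ (cls S P₀ (D + E)) = ψ (cls S P₀ D) * ψ (cls S P₀ E) := by
    intro D E _ _ hD hE
    rw [map_add]
    exact hψmul _ (cls_fixed S P₀ hP₀ D hD) _ (cls_fixed S P₀ hP₀ E hE)
  refine norm_ps_contra m hm (fun n => ∑ᶠ E ∈ effInv S.φ n, ψ (cls S P₀ E))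
    (fun j => ∑ᶠ P ∈ fixPts S.φ j, ψ (cls S P₀ (orbSum S.φ j P)))
    (fun r => ∑ᶠ _E ∈ effInv (S.φ ^ m) r, (1 : ℂ))
    (fun j => ∑ᶠ _P ∈ fixPts S.φ j, (1 : ℂ)) ?_ ?_ ?_ ?_ ?_ ?_ ?_
  · intro n
    exact hLog Pl S.φ S.orbit S.fixfin ℂ (fun D => ψ (cls S P₀ D)) hχ0 hχmul n
  · intro r
    have := hLog Pl (S.φ ^ m) (S.pow m hm).orbit (S.pow m hm).fixfin ℂ (fun _ => (1 : ℂ)) rfl
      (fun _ _ _ _ _ _ => (one_mul (1 : ℂ)).symm) r
    simp only [fixPts_pow] at this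
    exact this
  · intro j hj hmj
    obtain ⟨s, rfl⟩ := hmj
    refine finsum_mem_congr rfl fun P hP => ?_
    exact hψN _ (cls_fixed S P₀ hP₀ _ (act_orbSum S.φ (m * s) P hP))
      (cls_orbSum_norm S P₀ hP₀ m s P hP)
  · show ∑ᶠ E ∈ effInv S.φ 0, ψ (cls S P₀ E) = 1
    rw [effInv_zero, finsum_mem_singleton]
    exact hχ0
  · show ∑ᶠ _E ∈ effInv (S.φ ^ m) 0, (1 : ℂ) = 1
    rw [effInv_zero, finsum_mem_singleton]
  · refine ⟨(2 * (S.g : ℤ) - 1).toNat, fun n hn => ?_⟩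
    exact twisted_sum_zero S P₀ hP₀ hrep hHfin ψ hsum n (by omega) (hfinE' n)
  · intro r
    exact count_ne_zero (S.φ ^ m) P₀ (pow_fixed S.φ P₀ hP₀ m) r (hfinEm' r)

end Fermat.Agent.S27.Zeta.H30
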