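import Mathlib
import Fermat.Agent.S27.Zeta.Defs

/-!
# S27, package ZETA-ABS (helper52): basic consequences of the axioms of a `ZSys`

* `eq_zero_of_nonneg_of_degree` : `E ≥ 0`, `deg E = 0` implies `E = 0`;
* `exists_pow_fix` : every divisor is fixed by a power of `φ`;
* `l_W`, `degree_W` : `l(W) = g`, `deg W = 2g - 2`;
* `l_of_large` : `l(D) = deg D + 1 - g` for `deg D ≥ 2g - 1`;
* `mem_princ_of_l_pos`, `l_of_princ`, `l_degree_zero` : divisors of degree `0`;
* `l_canonical` : divisors of degree `2g - 2`;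
* `W_sub_act_mem` : the class of `W` is invariant;
* `cnt_int` : the counting axiom for `m = 1` in `ℤ`.
-/

set_option autoImplicit false
set_option linter.style.haveILetI false
set_option linter.unusedSectionVars false

noncomputable section

namespace Fermat.Agent.S27.Zeta.H52

universe u

variable {Pl : Type u}

theorem deg_eq_sum (E : Pl →₀ ℤ) : deg E = ∑ P ∈ E.support, E P := by
  unfold deg
  rw [Finsupp.liftAddHom_apply, Finsupp.sum]
  rfl

theorem deg_nonneg {E : Pl →₀ ℤ} (hE : 0 ≤ E) : 0 ≤ deg E := by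
  rw [deg_eq_sum]
  exact Finset.sum_nonneg fun P _ => hE P

theorem eq_zero_of_nonneg_of_deg {E : Pl →₀ ℤ} (hE : 0 ≤ E) (hdeg : deg E = 0) : E = 0 := by
  rw [deg_eq_sum] at hdeg
  have h := (Finset.sum_eq_zero_iff_of_nonneg fun P _ => hE P).mp hdeg
  ext P
  by_cases hP : P ∈ E.support
  · exact h P hP
  · exact Finsupp.notMem_support_iff.mp hP

theorem act_pow_of_fix (σ : Equiv.Perm Pl) {D : Pl →₀ ℤ} (h : act σ D = D) (j : ℕ) :
    act (σ ^ j) D = D := by
  induction j with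
  | zero => rw [pow_zero, act_one]
  | succ j ih => rw [pow_succ', act_mul, ih, h]

theorem pow_apply_of_fix (σ : Equiv.Perm Pl) {P : Pl} (h : σ P = P) (j : ℕ) :
    (σ ^ j) P = P := by
  induction j with
  | zero => rfl
  | succ j ih => rw [pow_succ', Equiv.Perm.mul_apply, ih, h]

variable (S : ZSys Pl)

theorem eq_zero_of_nonneg_of_degree {E : Pl →₀ ℤ} (hE : 0 ≤ E) (hdeg : S.degree E = 0) :
    E = 0 := by
  rw [S.degree_eq] at hdeg
  exact eq_zero_of_nonneg_of_deg hE hdeg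

/-- Every divisor is fixed by a power of `φ`. -/
theorem exists_pow_fix (D : Pl →₀ ℤ) : ∃ m : ℕ, 0 < m ∧ act (S.φ ^ m) D = D := by
  induction D using Finsupp.induction with
  | zero => exact ⟨1, one_pos, map_zero _⟩
  | single_add P n D _ _ ih =>
    obtain ⟨m₁, hm₁, h₁⟩ := S.orbit P
    obtain ⟨m₂, hm₂, h₂⟩ := ih
    refine ⟨m₁ * m₂, Nat.mul_pos hm₁ hm₂, ?_⟩
    rw [map_add, act_single]
    congr 1
    · rw [pow_mul, pow_apply_of_fix _ h₁]
    · rw [mul_comm, pow_mul]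
      exact act_pow_of_fix _ h₂ m₁

theorem l_W : S.l S.W = S.g := by
  have h := S.rr 0
  rw [S.l_zero, map_zero, sub_zero] at h
  have : (S.l S.W : ℤ) = S.g := by push_cast at h; omega
  exact_mod_cast this

theorem degree_W : S.degree S.W = 2 * (S.g : ℤ) - 2 := by
  have h := S.rr S.W
  rw [sub_self, S.l_zero, l_W S] at h
  push_cast at h
  omega

/-- `l(D) = deg D + 1 - g` for `deg D ≥ 2g - 1`. -/
theorem l_of_large {D : Pl →₀ ℤ} (hD : 2 * (S.g : ℤ) - 1 ≤ S.degree D) :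
    (S.l D : ℤ) = S.degree D + 1 - S.g := by
  have h := S.rr D
  rw [S.l_neg (S.W - D) (by rw [map_sub, degree_W S]; omega)] at h
  rw [h]
  simp

theorem one_le_Q_pow (j : ℕ) : 1 ≤ S.Q ^ j := Nat.one_le_pow _ _ (by have := S.two_le; omega)

/-- A divisor of degree `0` with `l ≥ 1` is principal. -/
theorem mem_princ_of_l_pos {D : Pl →₀ ℤ} (hdeg : S.degree D = 0) (hl : 0 < S.l D) :
    D ∈ S.Princ := by
  obtain ⟨m, hm, hfix⟩ := exists_pow_fix S D
  have hc := S.cnt m hm D (by rw [hfix, sub_self]; exact S.Princ.zero_mem)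
  have hpos : 0 < S.Q ^ (m * S.l D) - 1 := by
    have h2 : 2 ≤ S.Q ^ (m * S.l D) := by
      calc 2 ≤ S.Q := S.two_le
        _ = S.Q ^ 1 := (pow_one _).symm
        _ ≤ S.Q ^ (m * S.l D) :=
          Nat.pow_le_pow_right (by have := S.two_le; omega) (Nat.mul_pos hm hl)
    omega
  have hne : Nat.card {E : Pl →₀ ℤ // 0 ≤ E ∧ act (S.φ ^ m) E = E ∧ E - D ∈ S.Princ} ≠ 0 := by
    intro h0
    rw [h0, zero_mul] at hc
    omega
  obtain ⟨⟨E, hE0, -, hED⟩⟩ := (Nat.card_ne_zero.mp hne).1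
  have hdE : S.degree E = 0 := by
    have := S.princ_deg _ hED
    rw [map_sub, hdeg] at this
    omega
  have hE : E = 0 := eq_zero_of_nonneg_of_degree S hE0 hdE
  rw [hE, zero_sub] at hED
  have := S.Princ.neg_mem hED
  rwa [neg_neg] at this

theorem l_of_princ {D : Pl →₀ ℤ} (hD : D ∈ S.Princ) : S.l D = 1 := by
  have := S.l_princ 0 D hD
  rwa [zero_add, S.l_zero] at this

/-- The divisors of degree `0`. -/
theorem l_degree_zero {D : Pl →₀ ℤ} (hdeg : S.degree D = 0) :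
    (D ∈ S.Princ ∧ S.l D = 1) ∨ (D ∉ S.Princ ∧ S.l D = 0) := by
  by_cases hD : D ∈ S.Princ
  · exact Or.inl ⟨hD, l_of_princ S hD⟩
  · refine Or.inr ⟨hD, ?_⟩
    by_contra hl
    exact hD (mem_princ_of_l_pos S hdeg (Nat.pos_of_ne_zero hl))

/-- The divisors of degree `2g - 2`. -/
theorem l_canonical {D : Pl →₀ ℤ} (hdeg : S.degree D = 2 * (S.g : ℤ) - 2) :
    (S.W - D ∈ S.Princ ∧ (S.l D : ℤ) = S.g) ∨ (S.W - D ∉ S.Princ ∧ (S.l D : ℤ) = S.g - 1) := by
  have h := S.rr D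
  have hd : S.degree (S.W - D) = 0 := by rw [map_sub, degree_W S, hdeg, sub_self]
  rcases l_degree_zero S hd with ⟨hp, hl⟩ | ⟨hp, hl⟩
  · left
    refine ⟨hp, ?_⟩
    rw [hl, hdeg] at h
    push_cast at h
    omega
  · right
    refine ⟨hp, ?_⟩
    rw [hl, hdeg] at h
    push_cast at h
    omega

/-- The class of `W` is invariant. -/
theorem W_sub_act_mem : S.W - act S.φ S.W ∈ S.Princ := by
  have hdeg : S.degree (act S.φ S.W) = 2 * (S.g : ℤ) - 2 := by
    rw [S.degree_act, degree_W S]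
  rcases l_canonical S hdeg with ⟨hp, -⟩ | ⟨-, hl⟩
  · exact hp
  · exfalso
    rw [S.l_act, l_W S] at hl
    omega

/-- The counting axiom for `m = 1`, in `ℤ`. -/
theorem cnt_int {D : Pl →₀ ℤ} (hD : act S.φ D - D ∈ S.Princ) :
    (Nat.card {E : Pl →₀ ℤ // 0 ≤ E ∧ act S.φ E = E ∧ E - D ∈ S.Princ} : ℤ) * ((S.Q : ℤ) - 1)
      = (S.Q : ℤ) ^ S.l D - 1 := by
  have h := S.cnt 1 one_pos D (by rwa [pow_one])
  rw [pow_one, one_mul, pow_one] at h
  have h1 : (1 : ℕ) ≤ S.Q := by have := S.two_le; omega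
  have h2 := one_le_Q_pow S (S.l D)
  have h3 : ((Nat.card {E : Pl →₀ ℤ // 0 ≤ E ∧ act S.φ E = E ∧ E - D ∈ S.Princ} *
      (S.Q - 1) : ℕ) : ℤ) = ((S.Q ^ S.l D - 1 : ℕ) : ℤ) := by rw [h]
  rw [Nat.cast_mul, Nat.cast_sub h1, Nat.cast_sub h2] at h3
  push_cast at h3
  exact h3

end Fermat.Agent.S27.Zeta.H52
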