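import Mathlib
import Fermat.Agent.S27.Zeta.H52_Basic

/-!
# S27, package ZETA-ABS (helper52): counting invariant effective divisors by classes

For a `ZSys` with a fixed place `P₀`:

* `FixCl S` : the invariant classes of degree `0`; `Dn S P₀ n x` : a divisor of degree `n` in the
  class `x + n P₀`;
* `card_invEff` : `(Q - 1) #invEff n = ∑_{x ∈ FixCl} (Q ^ l(x + n P₀) - 1)`;
* `card_invEff_large` : `(Q - 1) #invEff n = h (Q ^ (n + 1 - g) - 1)` for `n ≥ 2g - 1`;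
* `card_invEff_canonical` : `(Q - 1) #invEff (2g - 2) = (h - 1)(Q ^ (g - 1) - 1) + (Q ^ g - 1)`;
* `card_invEff_zero` : `#invEff 0 = 1`.
-/

set_option autoImplicit false
set_option linter.style.haveILetI false
set_option linter.unusedSectionVars false

noncomputable section

namespace Fermat.Agent.S27.Zeta.H52

universe u

variable {Pl : Type u} (S : ZSys Pl)

/-- The invariant classes of degree `0`. -/
abbrev FixCl : Type u := {x : S.Cl0 // S.frob x = x}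

/-- A representative of a class. -/
def rep (x : S.Cl0) : S.degZero := (QuotientAddGroup.mk_surjective x).choose

theorem mk_rep (x : S.Cl0) : (QuotientAddGroup.mk (rep S x) : S.Cl0) = x :=
  (QuotientAddGroup.mk_surjective x).choose_spec

theorem mk_eq_mk_iff (D E : S.degZero) :
    (QuotientAddGroup.mk D : S.Cl0) = QuotientAddGroup.mk E ↔
      (D : Pl →₀ ℤ) - E ∈ S.Princ := by
  rw [QuotientAddGroup.eq, AddSubgroup.mem_addSubgroupOf]
  have e : (D : Pl →₀ ℤ) - E = -(((-D + E : S.degZero) : Pl →₀ ℤ)) := by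
    push_cast
    abel
  rw [e, neg_mem_iff]

theorem degree_rep (x : S.Cl0) : S.degree (rep S x : Pl →₀ ℤ) = 0 := (rep S x).2

theorem act_rep_sub_mem (x : FixCl S) :
    act S.φ (rep S x.1 : Pl →₀ ℤ) - rep S x.1 ∈ S.Princ := by
  have h := x.2
  rw [← mk_rep S x.1, ZSys.frob_mk, mk_eq_mk_iff, ZSys.coe_frobDegZero] at h
  exact h

/-- A divisor of degree `n` in the class `x + n P₀`. -/
def Dn (P₀ : Pl) (n : ℕ) (x : S.Cl0) : Pl →₀ ℤ :=
  (rep S x : Pl →₀ ℤ) + Finsupp.single P₀ (n : ℤ)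

theorem degree_Dn (P₀ : Pl) (n : ℕ) (x : S.Cl0) : S.degree (Dn S P₀ n x) = n := by
  unfold Dn
  rw [map_add, degree_rep, S.degree_single, zero_add]

theorem act_Dn_sub_mem {P₀ : Pl} (hP₀ : S.φ P₀ = P₀) (n : ℕ) (x : FixCl S) :
    act S.φ (Dn S P₀ n x.1) - Dn S P₀ n x.1 ∈ S.Princ := by
  unfold Dn
  rw [map_add, act_single, hP₀, add_sub_add_right_eq_sub]
  exact act_rep_sub_mem S x

theorem sub_single_mem_degZero (P₀ : Pl) {n : ℕ} {E : Pl →₀ ℤ} (hE : S.degree E = n) :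
    E - Finsupp.single P₀ (n : ℤ) ∈ S.degZero := by
  show S.degree (E - Finsupp.single P₀ (n : ℤ)) = 0
  rw [map_sub, S.degree_single, hE, sub_self]

/-- The class of an invariant effective divisor of degree `n`, shifted to degree `0`. -/
def cls {P₀ : Pl} (hP₀ : S.φ P₀ = P₀) (n : ℕ) (E : S.invEff n) : FixCl S :=
  ⟨QuotientAddGroup.mk ⟨(E : Pl →₀ ℤ) - Finsupp.single P₀ (n : ℤ),
      sub_single_mem_degZero S P₀ E.2.2.2⟩, by
    rw [ZSys.frob_mk]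
    congr 1
    apply Subtype.ext
    rw [ZSys.coe_frobDegZero]
    show act S.φ ((E : Pl →₀ ℤ) - Finsupp.single P₀ (n : ℤ))
      = (E : Pl →₀ ℤ) - Finsupp.single P₀ (n : ℤ)
    have hE : act S.φ (E : Pl →₀ ℤ) = E := E.2.2.1
    rw [map_sub, act_single, hP₀, hE]⟩

theorem cls_eq_iff {P₀ : Pl} (hP₀ : S.φ P₀ = P₀) (n : ℕ) (E : S.invEff n) (x : FixCl S) :
    cls S hP₀ n E = x ↔ (E : Pl →₀ ℤ) - Dn S P₀ n x.1 ∈ S.Princ := by
  rw [Subtype.ext_iff]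
  show (QuotientAddGroup.mk _ : S.Cl0) = x.1 ↔ _
  conv_lhs => rw [← mk_rep S x.1]
  rw [mk_eq_mk_iff]
  unfold Dn
  have e : (E : Pl →₀ ℤ) - ((rep S x.1 : Pl →₀ ℤ) + Finsupp.single P₀ (n : ℤ))
      = ((E : Pl →₀ ℤ) - Finsupp.single P₀ (n : ℤ)) - (rep S x.1 : Pl →₀ ℤ) := by abel
  rw [e]

/-- The fibre of `cls` over `x` is the set of the counting axiom. -/
def fiberEquiv {P₀ : Pl} (hP₀ : S.φ P₀ = P₀) (n : ℕ) (x : FixCl S) :
    {E : S.invEff n // cls S hP₀ n E = x} ≃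
      {E : Pl →₀ ℤ // 0 ≤ E ∧ act S.φ E = E ∧ E - Dn S P₀ n x.1 ∈ S.Princ} where
  toFun E := ⟨E.1.1, E.1.2.1, E.1.2.2.1, (cls_eq_iff S hP₀ n E.1 x).mp E.2⟩
  invFun E := ⟨⟨E.1, E.2.1, E.2.2.1, by
      have h := S.princ_deg _ E.2.2.2
      rw [map_sub, degree_Dn] at h
      exact sub_eq_zero.mp h⟩, (cls_eq_iff S hP₀ n _ x).mpr E.2.2.2⟩
  left_inv E := Subtype.ext (Subtype.ext rfl)
  right_inv E := Subtype.ext rfl

/-- **Counting by classes.** -/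
theorem card_invEff {P₀ : Pl} (hP₀ : S.φ P₀ = P₀) (n : ℕ) (hfin : (S.invEff n).Finite)
    [Fintype (FixCl S)] :
    ((S.invEff n).ncard : ℤ) * ((S.Q : ℤ) - 1)
      = ∑ x : FixCl S, ((S.Q : ℤ) ^ S.l (Dn S P₀ n x.1) - 1) := by
  haveI : Finite (S.invEff n) := hfin.to_subtype
  have h1 : (S.invEff n).ncard = ∑ x : FixCl S,
      Nat.card {E : Pl →₀ ℤ // 0 ≤ E ∧ act S.φ E = E ∧ E - Dn S P₀ n x.1 ∈ S.Princ} := by
    rw [← Nat.card_coe_set_eq, Nat.card_congr (Equiv.sigmaFiberEquiv (cls S hP₀ n)).symm,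
      Nat.card_sigma]
    exact Finset.sum_congr rfl fun x _ => Nat.card_congr (fiberEquiv S hP₀ n x)
  rw [h1, Nat.cast_sum, Finset.sum_mul]
  exact Finset.sum_congr rfl fun x _ => cnt_int S (act_Dn_sub_mem S hP₀ n x)

/-- `#invEff 0 = 1`. -/
theorem card_invEff_zero : (S.invEff 0).ncard = 1 := by
  have h : S.invEff 0 = {0} := by
    ext E
    rw [Set.mem_singleton_iff]
    constructor
    · rintro ⟨h0, -, hd⟩
      exact eq_zero_of_nonneg_of_degree S h0 (by simpa using hd)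
    · rintro rfl
      exact ⟨le_rfl, map_zero _, by simp⟩
  rw [h, Set.ncard_singleton]

/-- `(Q - 1) #invEff n = h (Q ^ (n + 1 - g) - 1)` for `n ≥ 2g - 1`. -/
theorem card_invEff_large {P₀ : Pl} (hP₀ : S.φ P₀ = P₀) (n : ℕ) (hfin : (S.invEff n).Finite)
    [Fintype (FixCl S)] (hn : 2 * S.g ≤ n + 1) :
    ((S.invEff n).ncard : ℤ) * ((S.Q : ℤ) - 1)
      = (Fintype.card (FixCl S) : ℤ) * ((S.Q : ℤ) ^ (n + 1 - S.g) - 1) := by
  rw [card_invEff S hP₀ n hfin]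
  have hl : ∀ x : FixCl S, S.l (Dn S P₀ n x.1) = n + 1 - S.g := by
    intro x
    have h := l_of_large S (D := Dn S P₀ n x.1) (by rw [degree_Dn]; omega)
    rw [degree_Dn] at h
    omega
  rw [Finset.sum_congr rfl fun x _ => by rw [hl x], Finset.sum_const, Finset.card_univ,
    nsmul_eq_mul]

/-- The class of `W`, shifted to degree `0`. -/
def clsW {P₀ : Pl} (hP₀ : S.φ P₀ = P₀) (hg : 1 ≤ S.g) : FixCl S :=
  ⟨QuotientAddGroup.mk ⟨S.W - Finsupp.single P₀ ((2 * S.g - 2 : ℕ) : ℤ),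
      sub_single_mem_degZero S P₀ (by rw [degree_W]; omega)⟩, by
    rw [ZSys.frob_mk, mk_eq_mk_iff, ZSys.coe_frobDegZero]
    show act S.φ (S.W - Finsupp.single P₀ ((2 * S.g - 2 : ℕ) : ℤ))
      - (S.W - Finsupp.single P₀ ((2 * S.g - 2 : ℕ) : ℤ)) ∈ S.Princ
    rw [map_sub, act_single, hP₀, sub_sub_sub_cancel_right, ← neg_sub]
    exact S.Princ.neg_mem (W_sub_act_mem S)⟩

theorem eq_clsW_iff {P₀ : Pl} (hP₀ : S.φ P₀ = P₀) (hg : 1 ≤ S.g) (x : FixCl S) :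
    x = clsW S hP₀ hg ↔ S.W - Dn S P₀ (2 * S.g - 2) x.1 ∈ S.Princ := by
  rw [eq_comm, Subtype.ext_iff]
  show (QuotientAddGroup.mk _ : S.Cl0) = x.1 ↔ _
  conv_lhs => rw [← mk_rep S x.1]
  rw [mk_eq_mk_iff]
  unfold Dn
  have e : S.W - ((rep S x.1 : Pl →₀ ℤ) + Finsupp.single P₀ ((2 * S.g - 2 : ℕ) : ℤ))
      = (S.W - Finsupp.single P₀ ((2 * S.g - 2 : ℕ) : ℤ)) - (rep S x.1 : Pl →₀ ℤ) := by abel
  rw [e]

/-- `(Q - 1) #invEff (2g - 2) = h (Q ^ (g - 1) - 1) + (Q ^ g - Q ^ (g - 1))`. -/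
theorem card_invEff_canonical {P₀ : Pl} (hP₀ : S.φ P₀ = P₀) (hg : 1 ≤ S.g)
    (hfin : (S.invEff (2 * S.g - 2)).Finite) [Fintype (FixCl S)] :
    ((S.invEff (2 * S.g - 2)).ncard : ℤ) * ((S.Q : ℤ) - 1)
      = (Fintype.card (FixCl S) : ℤ) * ((S.Q : ℤ) ^ (S.g - 1) - 1)
        + ((S.Q : ℤ) ^ S.g - (S.Q : ℤ) ^ (S.g - 1)) := by
  classical
  rw [card_invEff S hP₀ _ hfin]
  have hl : ∀ x : FixCl S, (S.Q : ℤ) ^ S.l (Dn S P₀ (2 * S.g - 2) x.1) - 1
      = ((S.Q : ℤ) ^ (S.g - 1) - 1)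
        + (if x = clsW S hP₀ hg then (S.Q : ℤ) ^ S.g - (S.Q : ℤ) ^ (S.g - 1) else 0) := by
    intro x
    have hdeg : S.degree (Dn S P₀ (2 * S.g - 2) x.1) = 2 * (S.g : ℤ) - 2 := by
      rw [degree_Dn]; omega
    rcases l_canonical S hdeg with ⟨hp, h⟩ | ⟨hp, h⟩
    · rw [if_pos ((eq_clsW_iff S hP₀ hg x).mpr hp)]
      have : S.l (Dn S P₀ (2 * S.g - 2) x.1) = S.g := by exact_mod_cast h
      rw [this]
      ring
    · rw [if_neg (fun hx => hp ((eq_clsW_iff S hP₀ hg x).mp hx)), add_zero]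
      have : S.l (Dn S P₀ (2 * S.g - 2) x.1) = S.g - 1 := by omega
      rw [this]
  rw [Finset.sum_congr rfl fun x _ => hl x, Finset.sum_add_distrib, Finset.sum_const,
    Finset.card_univ, nsmul_eq_mul, Finset.sum_ite_eq' Finset.univ (clsW S hP₀ hg),
    if_pos (Finset.mem_univ _)]

end Fermat.Agent.S27.Zeta.H52
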