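import Mathlib
import Fermat.Agent.S27.Zeta.H52_Count

/-!
# S27, package ZETA-ABS, leaf Z-RAT (helper52): rationality of the zeta function

`stmt_Z_Rat_of : Stmt_Z_Fin → Stmt_Z_Rat`:
`(1 - t)(1 - Q t) ∑ #invEff n tⁿ = L(t)` is a polynomial of degree `≤ 2g` with `L(0) = 1`,
coefficient `Q ^ g` at `t ^ (2g)` and `L(1) = h`.
-/

set_option autoImplicit false
set_option linter.style.haveILetI false
set_option linter.unusedSectionVars false

noncomputable section

namespace Fermat.Agent.S27.Zeta.H52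

universe u

open PowerSeries

section PS

variable (Q : ℤ) (A : ℕ → ℤ)

/-- `(1 - Q t) ∑ A_n tⁿ`. -/
def ser1 : PowerSeries ℤ := (1 - PowerSeries.C Q * PowerSeries.X) * PowerSeries.mk A

/-- `(1 - t)(1 - Q t) ∑ A_n tⁿ`. -/
def ser2 : PowerSeries ℤ := (1 - PowerSeries.X) * ser1 Q A

theorem ser2_eq :
    (1 - PowerSeries.X) * (1 - PowerSeries.C Q * PowerSeries.X) * PowerSeries.mk A = ser2 Q A :=
  mul_assoc _ _ _

theorem coeff_zero_ser1 : PowerSeries.coeff 0 (ser1 Q A) = A 0 := by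
  unfold ser1
  rw [sub_mul, one_mul, map_sub, mul_assoc, coeff_C_mul, coeff_zero_X_mul, mul_zero, sub_zero,
    coeff_mk]

theorem coeff_succ_ser1 (n : ℕ) :
    PowerSeries.coeff (n + 1) (ser1 Q A) = A (n + 1) - Q * A n := by
  unfold ser1
  rw [sub_mul, one_mul, map_sub, mul_assoc, coeff_C_mul, coeff_succ_X_mul, coeff_mk, coeff_mk]

theorem coeff_zero_ser2 : PowerSeries.coeff 0 (ser2 Q A) = A 0 := by
  unfold ser2
  rw [sub_mul, one_mul, map_sub, coeff_zero_X_mul, sub_zero, coeff_zero_ser1]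

theorem coeff_succ_ser2 (n : ℕ) :
    PowerSeries.coeff (n + 1) (ser2 Q A)
      = PowerSeries.coeff (n + 1) (ser1 Q A) - PowerSeries.coeff n (ser1 Q A) := by
  unfold ser2
  rw [sub_mul, one_mul, map_sub, coeff_succ_X_mul]

theorem sum_coeff_ser2 (N : ℕ) :
    ∑ i ∈ Finset.range (N + 1), PowerSeries.coeff i (ser2 Q A)
      = PowerSeries.coeff N (ser1 Q A) := by
  induction N with
  | zero =>
    rw [Finset.sum_range_one, coeff_zero_ser2, coeff_zero_ser1]
  | succ N ih =>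
    rw [Finset.sum_range_succ, ih, coeff_succ_ser2]
    ring

end PS

/-- **Z-RAT** from Z-FIN. -/
theorem stmt_Z_Rat_of (hFin : Stmt_Z_Fin.{u}) : Stmt_Z_Rat.{u} := by
  intro Pl S
  obtain ⟨hfin, -, hfix, -⟩ := hFin Pl S
  obtain ⟨P₀, hP₀⟩ := S.fixed
  haveI : Finite (FixCl S) := by
    have := hfix 1 one_pos
    simpa only [Function.iterate_one] using this
  haveI : Fintype (FixCl S) := Fintype.ofFinite _
  have hh : (Nat.card {x : S.Cl0 // S.frob x = x} : ℤ) = (Fintype.card (FixCl S) : ℤ) := by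
    rw [Nat.card_eq_fintype_card]
  set h : ℤ := (Fintype.card (FixCl S) : ℤ) with hh'
  set g : ℕ := S.g with hg'
  set A : ℕ → ℤ := fun n => ((S.invEff n).ncard : ℤ) with hA
  set Q : ℤ := (S.Q : ℤ) with hQ'
  have hQ2 : (2 : ℤ) ≤ Q := by
    rw [hQ']
    exact_mod_cast S.two_le
  have hQ1 : Q - 1 ≠ 0 := by omega
  have hA0 : A 0 = 1 := by
    rw [hA]
    show ((S.invEff 0).ncard : ℤ) = 1
    rw [card_invEff_zero]
    rfl
  have hAL : ∀ n : ℕ, 2 * g ≤ n + 1 → A n * (Q - 1) = h * (Q ^ (n + 1 - g) - 1) :=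
    fun n hn => card_invEff_large S hP₀ n (hfin n) hn
  -- the values of `(1 - Q t) ∑ A_n tⁿ`
  have hB : ∀ N : ℕ, 2 * g ≤ N → PowerSeries.coeff N (ser1 Q A) = h := by
    intro N hN
    apply mul_right_cancel₀ hQ1
    rcases Nat.eq_zero_or_pos N with rfl | hpos
    · have hg0 : g = 0 := by omega
      rw [coeff_zero_ser1, hAL 0 (by omega), hg0]
      ring
    · obtain ⟨n, rfl⟩ : ∃ n, N = n + 1 := ⟨N - 1, by omega⟩
      rw [coeff_succ_ser1, sub_mul, mul_assoc, hAL (n + 1) (by omega), hAL n (by omega)]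
      have e : n + 1 + 1 - g = (n + 1 - g) + 1 := by omega
      rw [e, pow_succ]
      ring
  have hBc : 1 ≤ g → PowerSeries.coeff (2 * g - 1) (ser1 Q A) = h - Q ^ g := by
    intro hg
    apply mul_right_cancel₀ hQ1
    have hcan := card_invEff_canonical S hP₀ hg (hfin _)
    obtain ⟨n, hn⟩ : ∃ n, 2 * g - 1 = n + 1 ∨ (g = 1 ∧ n = 0) := ⟨2 * g - 2, by omega⟩
    by_cases hg1 : g = 1
    · -- `2g - 1 = 1`
      have e1 : 2 * g - 1 = 0 + 1 := by omega
      have e2 : 2 * S.g - 2 = 0 := by omega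
      rw [e2] at hcan
      rw [e1, coeff_succ_ser1, sub_mul, mul_assoc, hAL 1 (by omega)]
      have hA0' : A 0 * (Q - 1) = h * (Q ^ (S.g - 1) - 1) + (Q ^ S.g - Q ^ (S.g - 1)) := hcan
      rw [hA0']
      have e3 : S.g = 1 := hg1
      rw [e3, hg1]
      norm_num
      ring
    · have e1 : 2 * g - 1 = (2 * g - 2) + 1 := by omega
      rw [e1, coeff_succ_ser1, sub_mul, mul_assoc, hAL (2 * g - 2 + 1) (by omega)]
      have hA' : A (2 * g - 2) * (Q - 1)
          = h * (Q ^ (g - 1) - 1) + (Q ^ g - Q ^ (g - 1)) := hcan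
      rw [hA']
      have e4 : 2 * g - 2 + 1 + 1 - g = (g - 1) + 1 := by omega
      have e5 : Q ^ g = Q ^ (g - 1) * Q := by
        rw [← pow_succ]
        congr 1
        omega
      rw [e4, pow_succ, e5]
      ring
  -- the coefficients of `L`
  have hc_top : PowerSeries.coeff (2 * g) (ser2 Q A) = Q ^ g := by
    rcases Nat.eq_zero_or_pos g with hg0 | hg
    · rw [hg0, mul_zero, coeff_zero_ser2, hA0, pow_zero]
    · have e1 : 2 * g = (2 * g - 1) + 1 := by omega
      rw [e1, coeff_succ_ser2, ← e1, hB (2 * g) le_rfl, hBc hg]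
      ring
  have hc_high : ∀ n : ℕ, 2 * g + 1 ≤ n → PowerSeries.coeff n (ser2 Q A) = 0 := by
    intro n hn
    obtain ⟨n, rfl⟩ : ∃ n', n = n' + 1 := ⟨n - 1, by omega⟩
    rw [coeff_succ_ser2, hB (n + 1) (by omega), hB n (by omega), sub_self]
  refine ⟨PowerSeries.trunc (2 * g + 1) (ser2 Q A), ?_, ?_, ?_, ?_, ?_⟩
  · have := natDegree_trunc_lt (ser2 Q A) (2 * g)
    omega
  · rw [coeff_trunc, if_pos (by omega), hc_top]
  · rw [coeff_trunc, if_pos (by omega), coeff_zero_ser2, hA0]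
  · rw [hh, Polynomial.eval_eq_sum_range' (natDegree_trunc_lt (ser2 Q A) (2 * g))]
    rw [Finset.sum_congr rfl fun i hi => by
      rw [coeff_trunc, if_pos (Finset.mem_range.mp hi), one_pow, mul_one]]
    rw [sum_coeff_ser2, hB (2 * g) le_rfl]
  · rw [ser2_eq]
    ext n
    rw [Polynomial.coeff_coe, coeff_trunc]
    split_ifs with hn
    · rfl
    · rw [hc_high n (by omega)]

end Fermat.Agent.S27.Zeta.H52
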