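import Mathlib
import Fermat.Agent.S27.Zeta.Defs

/-!
# S27, char-p half, leaf Z-DIVP (helper57): surjective norms + finite `ℓ`-torsion ⇒ `ℓ`-divisible

`G` an abelian group, `φ : G →+ G` such that every element is fixed by a power of `φ`, the fixed
points of every power are finite, `G[ℓ]` is finite and every `x` fixed by `φ^m` is a norm
`∑_{i<ℓ} φ^(m i) y` of some `y` fixed by `φ^(m ℓ)`.  Then `G = ℓ G`.

* `index_range_nsmul` : in a finite abelian group `#(A / ℓ A) = #A[ℓ]`;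
* `card_le_of_not_mem` : a finite set of elements of `G` which are pairwise incongruent modulo
  `ℓ G` has at most `#G[ℓ]` elements;
* `finite_quotient` : `G / ℓ G` is finite;
* `exists_period` : some power `φ^m₀` is the identity on `G / ℓ G`.
-/

set_option autoImplicit false
set_option linter.style.haveILetI false

noncomputable section

namespace Fermat.Agent.S27.Zeta.H57

universe u

section Finite

variable (A : Type*) [AddCommGroup A] [Finite A]

/-- In a finite abelian group `#(A / ℓ A) = #A[ℓ]`. -/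
theorem index_range_nsmul (ℓ : ℕ) :
    (nsmulAddMonoidHom ℓ : A →+ A).range.index
      = Nat.card (nsmulAddMonoidHom ℓ : A →+ A).ker := by
  set ψ : A →+ A := nsmulAddMonoidHom ℓ with hψ
  have h1 := AddSubgroup.card_mul_index ψ.range
  have h2 := AddSubgroup.card_mul_index ψ.ker
  have h3 : ψ.ker.index = Nat.card ψ.range := by
    rw [AddSubgroup.index_eq_card]
    exact Nat.card_congr (QuotientAddGroup.quotientKerEquivRange ψ).toEquiv
  rw [h3] at h2
  have hpos : 0 < Nat.card ψ.range := Nat.card_pos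
  have h4 : Nat.card ψ.range * ψ.range.index = Nat.card ψ.range * Nat.card ψ.ker := by
    rw [h1, ← h2, mul_comm]
  exact Nat.eq_of_mul_eq_mul_left hpos h4

end Finite

variable {G : Type u} [AddCommGroup G] (φ : G →+ G)

/-- The fixed points of `φ^m`. -/
def fixSub (m : ℕ) : AddSubgroup G where
  carrier := {x | (⇑φ)^[m] x = x}
  zero_mem' := iterate_map_zero φ m
  add_mem' := by
    intro a b ha hb
    show (⇑φ)^[m] (a + b) = a + b
    rw [iterate_map_add, ha, hb]
  neg_mem' := by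
    intro a ha
    show (⇑φ)^[m] (-a) = -a
    rw [iterate_map_neg, ha]

theorem mem_fixSub {m : ℕ} {x : G} : x ∈ fixSub φ m ↔ (⇑φ)^[m] x = x := Iff.rfl

theorem iterate_mul_fixed {m : ℕ} {x : G} (h : (⇑φ)^[m] x = x) (k : ℕ) :
    (⇑φ)^[m * k] x = x := by
  rw [Function.iterate_mul]
  exact Function.iterate_fixed h k

theorem iterate_fixed_of_dvd {m n : ℕ} (hmn : m ∣ n) {x : G} (h : (⇑φ)^[m] x = x) :
    (⇑φ)^[n] x = x := by
  obtain ⟨k, rfl⟩ := hmn
  exact iterate_mul_fixed φ h k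

variable (ℓ : ℕ)

/-- The subgroup `ℓ G`. -/
abbrev mulSub (G : Type u) [AddCommGroup G] (ℓ : ℕ) : AddSubgroup G :=
  (nsmulAddMonoidHom ℓ : G →+ G).range

theorem mem_mulSub {x : G} : x ∈ mulSub G ℓ ↔ ∃ y : G, ℓ • y = x := Iff.rfl

variable {φ ℓ}

/-- A finite set of elements which are pairwise incongruent modulo `ℓ G` has at most `#G[ℓ]`
elements. -/
theorem card_le_of_not_mem
    (hper : ∀ x : G, ∃ m : ℕ, 0 < m ∧ (⇑φ)^[m] x = x)
    (hfin : ∀ m : ℕ, 0 < m → Finite {x : G // (⇑φ)^[m] x = x})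
    (htors : Finite {x : G // ℓ • x = 0})
    (s : Finset G) (hs : ∀ x ∈ s, ∀ y ∈ s, x ≠ y → x - y ∉ mulSub G ℓ) :
    s.card ≤ Nat.card {x : G // ℓ • x = 0} := by
  classical
  choose per hper0 hperx using hper
  set m : ℕ := ∏ x ∈ s, per x with hm
  have hm0 : 0 < m := Finset.prod_pos fun x _ => hper0 x
  have hsm : ∀ x ∈ s, x ∈ fixSub φ m := fun x hx =>
    iterate_fixed_of_dvd φ (Finset.dvd_prod_of_mem per hx) (hperx x)
  haveI : Finite ↥(fixSub φ m) := hfin m hm0
  set ψ : ↥(fixSub φ m) →+ ↥(fixSub φ m) := nsmulAddMonoidHom ℓ with hψ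
  haveI : Finite (↥(fixSub φ m) ⧸ ψ.range) := inferInstance
  haveI : Fintype (↥(fixSub φ m) ⧸ ψ.range) := Fintype.ofFinite _
  -- the map to the quotient
  let f : G → ↥(fixSub φ m) ⧸ ψ.range := fun x =>
    if hx : x ∈ fixSub φ m then QuotientAddGroup.mk ⟨x, hx⟩ else 0
  have hinj : Set.InjOn f (s : Set G) := by
    intro x hx y hy hxy
    by_contra hne
    have hx' := hsm x hx
    have hy' := hsm y hy
    simp only [f, dif_pos hx', dif_pos hy'] at hxy
    rw [QuotientAddGroup.eq] at hxy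
    obtain ⟨a, ha⟩ := hxy
    apply hs y hy x hx (fun h => hne h.symm)
    refine ⟨(a : G), ?_⟩
    have h1 := congrArg (fun z : ↥(fixSub φ m) => (z : G)) ha
    simp only [hψ, nsmulAddMonoidHom_apply, AddSubgroup.coe_nsmul, AddSubgroup.coe_add,
      AddSubgroup.coe_neg] at h1
    rw [nsmulAddMonoidHom_apply, h1]
    abel
  have h1 : s.card ≤ Fintype.card (↥(fixSub φ m) ⧸ ψ.range) := by
    have := Finset.card_le_card_of_injOn f (fun x _ => Finset.mem_univ (f x)) hinj
    simpa using this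
  have h2 : Fintype.card (↥(fixSub φ m) ⧸ ψ.range) = Nat.card ψ.ker := by
    rw [← Nat.card_eq_fintype_card, ← AddSubgroup.index_eq_card]
    exact index_range_nsmul ↥(fixSub φ m) ℓ
  have h3 : Nat.card ψ.ker ≤ Nat.card {x : G // ℓ • x = 0} := by
    refine Nat.card_le_card_of_injective
      (fun a : ψ.ker => (⟨((a : ↥(fixSub φ m)) : G), ?_⟩ : {x : G // ℓ • x = 0})) ?_
    · have h : (nsmulAddMonoidHom ℓ : ↥(fixSub φ m) →+ ↥(fixSub φ m)) (a : ↥(fixSub φ m)) = 0 :=
        a.2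
      rw [nsmulAddMonoidHom_apply] at h
      have h' : ((ℓ • (a : ↥(fixSub φ m)) : ↥(fixSub φ m)) : G) = ((0 : ↥(fixSub φ m)) : G) :=
        congrArg (fun z : ↥(fixSub φ m) => (z : G)) h
      rw [AddSubgroup.coe_nsmul, AddSubgroup.coe_zero] at h'
      exact h'
    · intro a b hab
      have h := congrArg (fun z : {x : G // ℓ • x = 0} => (z : G)) hab
      exact Subtype.ext (Subtype.ext h)
  omega

/-- `G / ℓ G` is finite. -/
theorem finite_quotient
    (hper : ∀ x : G, ∃ m : ℕ, 0 < m ∧ (⇑φ)^[m] x = x)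
    (hfin : ∀ m : ℕ, 0 < m → Finite {x : G // (⇑φ)^[m] x = x})
    (htors : Finite {x : G // ℓ • x = 0}) :
    Finite (G ⧸ mulSub G ℓ) := by
  classical
  by_contra hinf
  rw [not_finite_iff_infinite] at hinf
  obtain ⟨T, hT⟩ := Infinite.exists_subset_card_eq (G ⧸ mulSub G ℓ)
    (Nat.card {x : G // ℓ • x = 0} + 1)
  have hout : Function.Injective (Quotient.out : G ⧸ mulSub G ℓ → G) := Quotient.out_injective
  have h1 := card_le_of_not_mem hper hfin htors (T.image Quotient.out) (by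
    intro x hx y hy hne hmem
    rw [Finset.mem_image] at hx hy
    obtain ⟨a, -, rfl⟩ := hx
    obtain ⟨b, -, rfl⟩ := hy
    apply hne
    have h2 : (QuotientAddGroup.mk (Quotient.out a) : G ⧸ mulSub G ℓ)
        = QuotientAddGroup.mk (Quotient.out b) := by
      rw [QuotientAddGroup.eq]
      have h3 : -Quotient.out a + Quotient.out b = -(Quotient.out a - Quotient.out b) := by abel
      rw [h3]
      exact neg_mem hmem
    have ha : (QuotientAddGroup.mk (Quotient.out a) : G ⧸ mulSub G ℓ) = a := Quotient.out_eq a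
    have hb : (QuotientAddGroup.mk (Quotient.out b) : G ⧸ mulSub G ℓ) = b := Quotient.out_eq b
    rw [ha, hb] at h2
    rw [h2])
  rw [Finset.card_image_of_injective T hout, hT] at h1
  omega

/-- Some power of `φ` is the identity modulo `ℓ G`. -/
theorem exists_period
    (hper : ∀ x : G, ∃ m : ℕ, 0 < m ∧ (⇑φ)^[m] x = x)
    (hfin : ∀ m : ℕ, 0 < m → Finite {x : G // (⇑φ)^[m] x = x})
    (htors : Finite {x : G // ℓ • x = 0}) :
    ∃ m₀ : ℕ, 0 < m₀ ∧ ∀ z : G, (⇑φ)^[m₀] z - z ∈ mulSub G ℓ := by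
  classical
  haveI := finite_quotient hper hfin htors
  haveI : Fintype (G ⧸ mulSub G ℓ) := Fintype.ofFinite _
  choose per hper0 hperx using hper
  refine ⟨∏ a : G ⧸ mulSub G ℓ, per (Quotient.out a), Finset.prod_pos fun a _ => hper0 _, ?_⟩
  intro z
  set m₀ : ℕ := ∏ a : G ⧸ mulSub G ℓ, per (Quotient.out a) with hm₀
  set r : G := Quotient.out (QuotientAddGroup.mk z : G ⧸ mulSub G ℓ) with hr
  have hrfix : (⇑φ)^[m₀] r = r :=
    iterate_fixed_of_dvd φ (Finset.dvd_prod_of_mem (fun a => per (Quotient.out a))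
      (Finset.mem_univ (QuotientAddGroup.mk z : G ⧸ mulSub G ℓ))) (hperx r)
  have hzr : -r + z ∈ mulSub G ℓ := by
    rw [← QuotientAddGroup.eq]
    exact Quotient.out_eq _
  obtain ⟨w, hw⟩ := hzr
  rw [nsmulAddMonoidHom_apply] at hw
  have hz : z = r + ℓ • w := by rw [hw]; abel
  refine ⟨(⇑φ)^[m₀] w - w, ?_⟩
  rw [nsmulAddMonoidHom_apply]
  conv_rhs => rw [hz]
  rw [iterate_map_add, hrfix, iterate_map_nsmul, smul_sub]
  abel

theorem iterate_mul_sub_mem {m₀ : ℕ} (h : ∀ z : G, (⇑φ)^[m₀] z - z ∈ mulSub G ℓ) (k : ℕ)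
    (z : G) : (⇑φ)^[m₀ * k] z - z ∈ mulSub G ℓ := by
  induction k with
  | zero =>
    rw [Nat.mul_zero, Function.iterate_zero, id_eq, sub_self]
    exact zero_mem _
  | succ k ih =>
    have e : (⇑φ)^[m₀ * (k + 1)] z - z
        = ((⇑φ)^[m₀] ((⇑φ)^[m₀ * k] z) - (⇑φ)^[m₀ * k] z) + ((⇑φ)^[m₀ * k] z - z) := by
      rw [Nat.mul_succ, Nat.add_comm, Function.iterate_add_apply]
      abel
    rw [e]
    exact add_mem (h _) ih

/-- **Z-DIVP.** -/
theorem stmt_Z_DivP : Stmt_Z_DivP.{u} := by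
  intro ℓ _ G _ φ hper hfin htors hnorm x
  obtain ⟨m₀, hm₀, hm₀z⟩ := exists_period hper hfin htors
  obtain ⟨m₁, hm₁, hm₁x⟩ := hper x
  have hmx : (⇑φ)^[m₁ * m₀] x = x := iterate_mul_fixed φ hm₁x m₀
  obtain ⟨y, -, hy⟩ := hnorm (m₁ * m₀) (Nat.mul_pos hm₁ hm₀) x hmx
  have hmem : ∀ i : ℕ, (⇑φ)^[m₁ * m₀ * i] y - y ∈ mulSub G ℓ := by
    intro i
    have e : m₁ * m₀ * i = m₀ * (m₁ * i) := by ring
    rw [e]
    exact iterate_mul_sub_mem hm₀z (m₁ * i) y
  have hx : x = ℓ • y + ∑ i ∈ Finset.range ℓ, ((⇑φ)^[m₁ * m₀ * i] y - y) := by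
    rw [Finset.sum_sub_distrib, hy, Finset.sum_const, Finset.card_range]
    abel
  have hxmem : x ∈ mulSub G ℓ := by
    rw [hx]
    exact add_mem ⟨y, rfl⟩ (sum_mem fun i _ => hmem i)
  exact hxmem

end Fermat.Agent.S27.Zeta.H57
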