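/-
S27 char-p half, leaf Z-MAIN (helper62): assembly of the abstract zeta system.
`stmt_Z_Main_of`: Z-FIN, Z-EXT, Z-NORM, Z-DIVP and package IW (`Stmt_IW_Fin`, `Stmt_IW_Card`)
give `Stmt_Z_Main`: `#Cl⁰[ℓ^n] = ℓ^(2 g n)` for `ℓ ∤ Q`.
-/
import Fermat.Agent.S27.Zeta.Defs
import Fermat.Agent.S27.IW.Defs

set_option autoImplicit false

namespace Fermat.Agent.S27.Zeta.H62

open Fermat.Agent.S27 Fermat.Agent.S27.Zeta

universe u

theorem iterate_pow_frob {Pl : Type u} (S : ZSys Pl) (m : ℕ) (hm : 0 < m) (i : ℕ) (y : S.Cl0) :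
    (⇑(S.pow m hm).frob)^[i] y = (⇑S.frob)^[m * i] y := by
  have h : (⇑(S.pow m hm).frob : S.Cl0 → S.Cl0) = (⇑S.frob)^[m] := by
    funext x
    exact S.pow_frob m hm x
  rw [Function.iterate_mul]
  exact congrFun (congrArg (fun f : S.Cl0 → S.Cl0 => f^[i]) h) y

theorem stmt_Z_Main_of (hFin : Stmt_Z_Fin.{u}) (hExt : Stmt_Z_Ext.{u})
    (hNorm : Stmt_Z_Norm.{u}) (hDivP : Stmt_Z_DivP.{u})
    (hIWFin : IW.Stmt_IW_Fin.{u}) (hIWCard : IW.Stmt_IW_Card.{u}) :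
    Stmt_Z_Main.{u} := by
  intro Pl S ℓ hℓF hℓ n
  have hℓp : ℓ.Prime := hℓF.out
  obtain ⟨-, hfix, hfin, -⟩ := hFin Pl S
  obtain ⟨A, hdet, hcard⟩ := hExt Pl S
  have hyp : IW.Hyp ℓ S.frob A :=
    { det := by
        rw [hdet]
        intro h
        have h1 : (ℓ : ℤ) ∣ (S.Q : ℤ) := (Nat.prime_iff_prime_int.mp hℓp).dvd_of_dvd_pow h
        exact hℓ (Int.natCast_dvd_natCast.mp h1)
      fix := hfix
      fin := hfin
      card := fun m hm => by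
        have h := hcard m hm
        rw [← h, Int.natAbs_natCast] }
  have htors : Finite {x : S.Cl0 // ℓ • x = 0} := by
    have h := hIWFin ℓ S.Cl0 S.frob _ A hyp 1
    simpa only [pow_one] using h
  have hdiv : ∀ x : S.Cl0, ∃ y : S.Cl0, ℓ • y = x := by
    apply hDivP ℓ S.Cl0 S.frob hfix hfin htors
    intro m hm x hx
    obtain ⟨y, hy1, hy2⟩ := hNorm Pl (S.pow m hm) ℓ hℓp.pos x
      (by rw [S.pow_frob]; exact hx)
    refine ⟨y, ?_, ?_⟩
    · rw [← iterate_pow_frob S m hm ℓ y]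
      exact hy1
    · rw [← hy2]
      refine Finset.sum_congr rfl fun i _ => ?_
      exact (iterate_pow_frob S m hm i y).symm
  exact hIWCard ℓ S.Cl0 S.frob _ A hyp hdiv n

end Fermat.Agent.S27.Zeta.H62
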