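/-
S27 char-p half, leaf Z-EXT (helper8): extension of constants for the abstract zeta system.
`z_ext_of : Stmt_Z_Rat → Stmt_Z_LogDer → Stmt_Z_Ext`.

`L` from Z-RAT, `A` with `det (1 - X A) = L` (`Lift.H68.exists_matrix_charpolyRev_eq`);
Z-LOGDER with `χ = 1` is `X Z' = (∑ N_j X^j) Z`, hence `X L' = - (∑ (1 + Q^j - N_j) X^j) L`,
so `tr (A^j) = 1 + Q^j - N_j` (Newton, `Lift.H68.succ_mul_coeff_charpolyRev`); the same for `φ^m`
gives `L_m = det (1 - X A^m)` (`Lift.H68.coeff_eq_of_newton`) and `h_m = L_m(1) = det (1 - A^m)`.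
-/
import Fermat.Agent.S27.Zeta.Defs
import Fermat.Agent.S27.Lift.H68_LogDer

set_option autoImplicit false

namespace Fermat.Agent.S27.Zeta.H8

open Fermat.Agent.S27 Fermat.Agent.S27.Zeta

universe u

/-- `∑ᶠ a ∈ s, 1 = #s` (both sides are `0` if `s` is infinite). -/
theorem finsum_mem_one_eq_ncard {α : Type*} (s : Set α) :
    (∑ᶠ a ∈ s, (1 : ℤ)) = (s.ncard : ℤ) := by
  by_cases hs : s.Finite
  · rw [finsum_mem_eq_finite_toFinset_sum _ hs, Finset.sum_const, Set.ncard_eq_toFinset_card s hs,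
      nsmul_eq_mul, mul_one]
  · rw [finsum_mem_eq_zero_of_infinite, Set.Infinite.ncard hs, Nat.cast_zero]
    have h : Function.support (fun _ : α => (1 : ℤ)) = Set.univ := by
      ext a
      simp
    rw [h, Set.inter_univ]
    exact hs

section Series

open PowerSeries

/-- From the logarithmic derivative of `Z = ∑ a_n X^n` to the Newton recursion for
`L = (1 - X)(1 - Q X) Z`. -/
theorem newton_of_logder (Q : ℤ) (a N : ℕ → ℤ) (L : PowerSeries ℤ)
    (hlog : ∀ n : ℕ, (n : ℤ) * a n = ∑ j ∈ Finset.Icc 1 n, N j * a (n - j))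
    (hL : L = (1 - X) * (1 - C Q * X) * PowerSeries.mk a) :
    ∀ j : ℕ, ((j : ℤ) + 1) * coeff (j + 1) L =
      - ∑ m ∈ Finset.range (j + 1), (1 + Q ^ (m + 1) - N (m + 1)) * coeff (j - m) L := by
  set Z : PowerSeries ℤ := PowerSeries.mk a with hZdef
  set NN : PowerSeries ℤ := PowerSeries.mk (fun j => if j = 0 then 0 else N j) with hNN
  set E1 : PowerSeries ℤ := PowerSeries.mk 1 with hE1
  set EQ : PowerSeries ℤ := PowerSeries.mk (fun n => Q ^ n) with hEQ
  have h1 : E1 * (1 - X) = 1 := mk_one_mul_one_sub_eq_one ℤ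
  have hQ : EQ * (1 - C Q * X) = 1 := by
    have h := congrArg (rescale Q) h1
    rw [map_mul, map_sub, map_one, rescale_X, hE1, rescale_mk] at h
    simpa only [Pi.one_apply, mul_one] using h
  -- the logarithmic derivative of `Z`
  have hZ : X * d⁄dX ℤ Z = NN * Z := by
    ext n
    rcases n with _ | n
    · rw [coeff_zero_X_mul, coeff_mul, Finset.Nat.antidiagonal_zero, Finset.sum_singleton,
        coeff_mk]
      simp
    · rw [coeff_succ_X_mul, coeff_derivative, coeff_mk, coeff_mul,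
        Finset.Nat.sum_antidiagonal_eq_sum_range_succ (fun i k => coeff i NN * coeff k Z),
        Finset.sum_range_succ']
      have h0 : coeff 0 NN = 0 := by rw [coeff_mk]; simp
      rw [h0, zero_mul, add_zero]
      have h2 := hlog (n + 1)
      rw [← Finset.Ico_add_one_right_eq_Icc, Finset.sum_Ico_eq_sum_range] at h2
      have h3 : (n + 1 + 1 - 1) = n + 1 := by omega
      rw [h3] at h2
      push_cast at h2
      rw [mul_comm, h2]
      refine Finset.sum_congr rfl fun i _ => ?_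
      rw [coeff_mk, coeff_mk, if_neg (Nat.succ_ne_zero i), add_comm 1 i]
  -- the derivative of `L`
  have hd : d⁄dX ℤ L = (-(1 - C Q * X) - C Q * (1 - X)) * Z + (1 - X) * (1 - C Q * X) * d⁄dX ℤ Z := by
    rw [hL, Derivation.leibniz, Derivation.leibniz]
    simp only [map_sub, derivative_one, Derivation.leibniz, derivative_C, derivative_X, smul_eq_mul,
      zero_sub, mul_zero, mul_one, add_zero, mul_neg]
    ring
  set TT : PowerSeries ℤ := X * E1 + C Q * X * EQ - NN with hTT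
  have hmain : X * d⁄dX ℤ L = - (TT * L) := by
    rw [hd, hL, hTT]
    linear_combination (X * (1 - C Q * X) * Z) * h1 + (C Q * X * (1 - X) * Z) * hQ +
      ((1 - X) * (1 - C Q * X)) * hZ
  intro j
  have hj := congrArg (coeff (j + 1)) hmain
  rw [coeff_succ_X_mul, coeff_derivative, map_neg, coeff_mul,
    Finset.Nat.sum_antidiagonal_eq_sum_range_succ (fun i k => coeff i TT * coeff k L),
    Finset.sum_range_succ'] at hj
  have h0 : coeff 0 TT = 0 := by
    rw [hTT, map_sub, map_add, coeff_zero_X_mul, mul_assoc, mul_comm (C Q), mul_assoc,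
      coeff_zero_X_mul, coeff_mk]
    simp
  have hT : ∀ m : ℕ, coeff (m + 1) TT = 1 + Q ^ (m + 1) - N (m + 1) := by
    intro m
    rw [hTT, map_sub, map_add, coeff_succ_X_mul, mul_comm (C Q) X, mul_assoc, coeff_succ_X_mul,
      coeff_C_mul, coeff_mk, coeff_mk, coeff_mk, if_neg (Nat.succ_ne_zero m), pow_succ']
    rfl
  rw [h0, zero_mul, add_zero] at hj
  rw [mul_comm, hj]
  congr 1
  refine Finset.sum_congr rfl fun m _ => ?_
  rw [hT, Nat.add_sub_add_right]

end Series

section Matrix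

open Polynomial Matrix

variable {n : Type*} [Fintype n] [DecidableEq n]

/-- `det (1 - X A)` at `X = 1`. -/
theorem eval_one_charpolyRev (B : Matrix n n ℤ) : B.charpolyRev.eval 1 = (1 - B).det := by
  unfold Matrix.charpolyRev
  rw [← Polynomial.coe_evalRingHom, RingHom.map_det]
  congr 1
  ext i j
  simp [Matrix.one_apply, apply_ite]

/-- The traces of the powers of `A` are determined by the Newton recursion for
`det (1 - X A)`. -/
theorem trace_pow_eq_of_newton (A : Matrix n n ℤ) (t : ℕ → ℤ)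
    (hrec : ∀ j : ℕ, ((j : ℤ) + 1) * A.charpolyRev.coeff (j + 1) =
      - ∑ m ∈ Finset.range (j + 1), t (m + 1) * A.charpolyRev.coeff (j - m)) :
    ∀ i : ℕ, (A ^ (i + 1)).trace = t (i + 1) := by
  intro i
  induction i using Nat.strong_induction_on with
  | _ i ih =>
    have h1 := hrec i
    have h2 := Fermat.Agent.S27.Lift.H68.succ_mul_coeff_charpolyRev A i
    rw [h2, neg_inj, Finset.sum_range_succ, Finset.sum_range_succ, Nat.sub_self] at h1
    have h3 : ∑ m ∈ Finset.range i, (A ^ (m + 1)).trace * A.charpolyRev.coeff (i - m) =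
        ∑ m ∈ Finset.range i, t (m + 1) * A.charpolyRev.coeff (i - m) := by
      refine Finset.sum_congr rfl fun m hm => ?_
      rw [ih m (Finset.mem_range.1 hm)]
    have h0 : A.charpolyRev.coeff 0 = 1 := by
      rw [Polynomial.coeff_zero_eq_eval_zero, Matrix.eval_charpolyRev]
    rw [h3, h0, mul_one, mul_one] at h1
    exact add_left_cancel h1

end Matrix

/-- Z-RAT and Z-LOGDER for one system: the polynomial `L` with its Newton recursion. -/
theorem exists_L_newton (hRat : Stmt_Z_Rat.{u}) (hLog : Stmt_Z_LogDer.{u, 0}) {Pl : Type u}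
    (S : ZSys Pl) :
    ∃ L : Polynomial ℤ, L.natDegree ≤ 2 * S.g ∧ L.coeff (2 * S.g) = (S.Q : ℤ) ^ S.g ∧
      L.coeff 0 = 1 ∧ L.eval 1 = (Nat.card {x : S.Cl0 // S.frob x = x} : ℤ) ∧
      ∀ j : ℕ, ((j : ℤ) + 1) * L.coeff (j + 1) =
        - ∑ m ∈ Finset.range (j + 1),
            (1 + (S.Q : ℤ) ^ (m + 1) - ((fixPts S.φ (m + 1)).ncard : ℤ)) * L.coeff (j - m) := by
  obtain ⟨L, hdeg, htop, h0, h1, hL⟩ := hRat Pl S
  refine ⟨L, hdeg, htop, h0, h1, ?_⟩
  have hlog : ∀ k : ℕ, (k : ℤ) * ((S.invEff k).ncard : ℤ) =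
      ∑ j ∈ Finset.Icc 1 k, ((fixPts S.φ j).ncard : ℤ) * ((S.invEff (k - j)).ncard : ℤ) := by
    intro k
    have h := hLog Pl S.φ S.orbit S.fixfin ℤ (fun _ => 1) rfl (fun _ _ _ _ _ _ => (mul_one 1).symm) k
    rw [finsum_mem_one_eq_ncard, ← S.invEff_eq] at h
    rw [h]
    refine Finset.sum_congr rfl fun j _ => ?_
    rw [finsum_mem_one_eq_ncard, finsum_mem_one_eq_ncard, ← S.invEff_eq]
  have key := newton_of_logder (S.Q : ℤ) (fun k => ((S.invEff k).ncard : ℤ))
    (fun j => ((fixPts S.φ j).ncard : ℤ)) (L : PowerSeries ℤ) hlog hL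
  intro j
  have hj := key j
  rw [Polynomial.coeff_coe] at hj
  rw [hj]
  congr 1
  refine Finset.sum_congr rfl fun m _ => ?_
  rw [Polynomial.coeff_coe]

/-- **Z-EXT** from Z-RAT and Z-LOGDER. -/
theorem z_ext_of (hRat : Stmt_Z_Rat.{u}) (hLog : Stmt_Z_LogDer.{u, 0}) : Stmt_Z_Ext.{u} := by
  intro Pl S
  obtain ⟨L, hdeg, htop, h0, -, hrec⟩ := exists_L_newton hRat hLog S
  have hQ0 : (S.Q : ℤ) ^ S.g ≠ 0 := by
    have := S.two_le
    positivity
  have hnat : L.natDegree = 2 * S.g := by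
    refine le_antisymm hdeg (Polynomial.le_natDegree_of_ne_zero ?_)
    rw [htop]
    exact hQ0
  obtain ⟨A, hA, hdet⟩ := Fermat.Agent.S27.Lift.H68.exists_matrix_charpolyRev_eq L h0 (2 * S.g) hnat
  have hlead : L.leadingCoeff = (S.Q : ℤ) ^ S.g := by
    rw [Polynomial.leadingCoeff, hnat, htop]
  refine ⟨A, ?_, ?_⟩
  · rw [hdet, hlead, pow_mul, neg_one_sq, one_pow, one_mul]
  -- the traces of the powers of `A`
  have htr : ∀ i : ℕ, (A ^ (i + 1)).trace =
      1 + (S.Q : ℤ) ^ (i + 1) - ((fixPts S.φ (i + 1)).ncard : ℤ) := by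
    refine trace_pow_eq_of_newton A
      (fun i => 1 + (S.Q : ℤ) ^ i - ((fixPts S.φ i).ncard : ℤ)) ?_
    intro j
    rw [hA]
    exact hrec j
  intro m hm
  obtain ⟨Lm, -, -, hm0, hm1, hmrec⟩ := exists_L_newton hRat hLog (S.pow m hm)
  have hfix : ∀ i : ℕ, fixPts (S.pow m hm).φ i = fixPts S.φ (m * i) := by
    intro i
    unfold fixPts
    rw [ZSys.pow_φ, ← pow_mul]
  have hcoef : ∀ j, Lm.coeff j = (A ^ m).charpolyRev.coeff j := by
    refine Fermat.Agent.S27.Lift.H68.coeff_eq_of_newton (A ^ m) (fun j => Lm.coeff j) hm0 ?_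
    intro j
    rw [hmrec j]
    congr 1
    refine Finset.sum_congr rfl fun i _ => ?_
    congr 1
    rw [← pow_mul, hfix, ZSys.pow_Q]
    obtain ⟨k, hk⟩ : ∃ k, m * (i + 1) = k + 1 := by
      have hpos : 0 < m * (i + 1) := Nat.mul_pos hm (Nat.succ_pos i)
      exact ⟨m * (i + 1) - 1, by omega⟩
    rw [hk, htr k]
    push_cast
    rw [← pow_mul, hk]
  have hLm : Lm = (A ^ m).charpolyRev := Polynomial.ext hcoef
  rw [← eval_one_charpolyRev, ← hLm, hm1]
  congr 1
  refine Nat.card_congr (Equiv.subtypeEquivRight fun x => ?_)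
  rw [S.pow_frob m hm x]
  exact Iff.rfl

end Fermat.Agent.S27.Zeta.H8
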