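/-
S27 (row 26), package ZETA-ABS, leaf **Z-FIN** (helper97): `stmt_Z_Fin : Stmt_Z_Fin`.
Finitely many invariant effective divisors of given degree; every class of degree `0` is fixed by
a power of Frobenius; finitely many classes fixed by a given power; an invariant class of degree
`0` is the class of an invariant divisor.  Mathlib + `S27/Zeta/Defs.lean` only.
-/
import Fermat.Agent.S27.Zeta.Defs

set_option autoImplicit false

noncomputable section

namespace Fermat.Agent.S27.Zeta.H97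

open Fermat.Agent.S27.Zeta

universe u

variable {Pl : Type u}

/-- an invariant divisor has the same coefficient at `P` and at `σ P` -/
theorem act_fix_apply (σ : Equiv.Perm Pl) (E : Pl →₀ ℤ) (h : act σ E = E) (P : Pl) :
    E (σ P) = E P := by
  conv_lhs => rw [← h]
  rw [act_apply, Finsupp.mapDomain_apply σ.injective]

theorem act_fix_apply_pow (σ : Equiv.Perm Pl) (E : Pl →₀ ℤ) (h : act σ E = E) (P : Pl) (i : ℕ) :
    E ((σ ^ i) P) = E P := by
  induction i with
  | zero => rfl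
  | succ i ih => rw [pow_succ', Equiv.Perm.mul_apply, act_fix_apply σ E h, ih]

theorem deg_eq_sum (E : Pl →₀ ℤ) : deg E = ∑ P ∈ E.support, E P := by
  simp [deg, Finsupp.sum]

theorem apply_le_deg (E : Pl →₀ ℤ) (h0 : 0 ≤ E) (P : Pl) : E P ≤ deg E := by
  rw [deg_eq_sum]
  by_cases hP : P ∈ E.support
  · exact Finset.single_le_sum (f := fun P => E P) (fun Q _ => h0 Q) hP
  · rw [Finsupp.notMem_support_iff.mp hP]
    exact Finset.sum_nonneg (fun Q _ => h0 Q)

theorem card_support_le_deg (E : Pl →₀ ℤ) (h0 : 0 ≤ E) : (E.support.card : ℤ) ≤ deg E := by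
  rw [deg_eq_sum]
  have : ∀ P ∈ E.support, (1 : ℤ) ≤ E P := by
    intro P hP
    have h1 : E P ≠ 0 := Finsupp.mem_support_iff.mp hP
    have h2 : (0 : ℤ) ≤ E P := h0 P
    omega
  calc (E.support.card : ℤ) = ∑ _P ∈ E.support, (1 : ℤ) := by simp
    _ ≤ ∑ P ∈ E.support, E P := Finset.sum_le_sum this

theorem perm_pow_fix (σ : Equiv.Perm Pl) (P : Pl) (h : σ P = P) (j : ℕ) : (σ ^ j) P = P := by
  induction j with
  | zero => rfl
  | succ j ih => rw [pow_succ, Equiv.Perm.mul_apply, h, ih]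

/-- a place in the support of an invariant effective divisor of degree `n` is fixed by `φ^j` for
some `1 ≤ j ≤ n` -/
theorem exists_fix_of_mem_support (φ : Equiv.Perm Pl) (n : ℕ) (E : Pl →₀ ℤ) (hE : E ∈ effInv φ n)
    (P : Pl) (hP : P ∈ E.support) : ∃ j ∈ Finset.Icc 1 n, P ∈ fixPts φ j := by
  obtain ⟨h0, hφ, hdeg⟩ := hE
  have hcard : E.support.card < (Finset.range (n + 1)).card := by
    rw [Finset.card_range]
    have := card_support_le_deg E h0
    rw [hdeg] at this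
    have : E.support.card ≤ n := by exact_mod_cast this
    omega
  have hmaps : ∀ i ∈ Finset.range (n + 1), (φ ^ i) P ∈ E.support := by
    intro i _
    rw [Finsupp.mem_support_iff, act_fix_apply_pow φ E hφ]
    exact Finsupp.mem_support_iff.mp hP
  obtain ⟨i, hi, j, hj, hij, hPij⟩ :=
    Finset.exists_ne_map_eq_of_card_lt_of_maps_to hcard hmaps
  rw [Finset.mem_range] at hi hj
  have key : ∀ a b : ℕ, a < b → b < n + 1 → (φ ^ a) P = (φ ^ b) P →
      ∃ j ∈ Finset.Icc 1 n, P ∈ fixPts φ j := by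
    intro a b hab hb h
    refine ⟨b - a, Finset.mem_Icc.mpr ⟨by omega, by omega⟩, ?_⟩
    show (φ ^ (b - a)) P = P
    have hb' : b = a + (b - a) := by omega
    rw [hb', pow_add, Equiv.Perm.mul_apply] at h
    exact ((φ ^ a).injective h).symm
  rcases lt_or_gt_of_ne hij with h | h
  · exact key i j h hj hPij
  · exact key j i h hi hPij.symm

theorem effInv_finite (φ : Equiv.Perm Pl) (hfix : ∀ m : ℕ, 0 < m → (fixPts φ m).Finite) (n : ℕ) :
    (effInv φ n).Finite := by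
  classical
  have hT : (⋃ j ∈ Finset.Icc 1 n, fixPts φ j).Finite :=
    Set.Finite.biUnion (Finset.finite_toSet _) fun j hj =>
      hfix j (by have := (Finset.mem_Icc.mp hj).1; omega)
  refine (Finset.finite_toSet (hT.toFinset.finsupp fun _ => Finset.Icc (0 : ℤ) n)).subset ?_
  intro E hE
  rw [Finset.mem_coe, Finset.mem_finsupp_iff]
  refine ⟨?_, ?_⟩
  · intro P hP
    rw [Set.Finite.mem_toFinset]
    obtain ⟨j, hj, hPj⟩ := exists_fix_of_mem_support φ n E hE P hP
    exact Set.mem_biUnion hj hPj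
  · intro P _
    rw [Finset.mem_Icc]
    refine ⟨hE.1 P, ?_⟩
    have := apply_le_deg E hE.1 P
    rw [hE.2.2] at this
    exact this

theorem exists_pow_fix_finset (φ : Equiv.Perm Pl) (horb : ∀ P : Pl, ∃ m : ℕ, 0 < m ∧ (φ ^ m) P = P)
    (s : Finset Pl) : ∃ m : ℕ, 0 < m ∧ ∀ P ∈ s, (φ ^ m) P = P := by
  classical
  induction s using Finset.induction_on with
  | empty => exact ⟨1, one_pos, by simp⟩
  | insert a s ha ih =>
    obtain ⟨m, hm, h⟩ := ih
    obtain ⟨k, hk, h'⟩ := horb a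
    refine ⟨m * k, Nat.mul_pos hm hk, ?_⟩
    intro P hP
    rcases Finset.mem_insert.mp hP with rfl | hP
    · rw [mul_comm, pow_mul]
      exact perm_pow_fix _ _ h' m
    · rw [pow_mul]
      exact perm_pow_fix _ _ (h P hP) k

theorem act_eq_self_of_fix (σ : Equiv.Perm Pl) (D : Pl →₀ ℤ) (h : ∀ P ∈ D.support, σ P = P) :
    act σ D = D := by
  rw [act_apply]
  conv_rhs => rw [← Finsupp.mapDomain_id (v := D)]
  exact Finsupp.mapDomain_congr h

variable (S : ZSys Pl)

theorem invEff_finite (n : ℕ) : (S.invEff n).Finite := by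
  rw [S.invEff_eq]
  exact effInv_finite S.φ S.fixfin n

theorem exists_iterate_frob_eq (x : S.Cl0) : ∃ m : ℕ, 0 < m ∧ (⇑S.frob)^[m] x = x := by
  obtain ⟨D, rfl⟩ := QuotientAddGroup.mk_surjective x
  obtain ⟨m, hm, h⟩ := exists_pow_fix_finset S.φ S.orbit (D : Pl →₀ ℤ).support
  refine ⟨m, hm, ?_⟩
  rw [S.iterate_frob_mk m D]
  congr 1
  exact Subtype.ext (act_eq_self_of_fix _ _ h)

theorem mk_eq_mk_iff (D D' : S.degZero) :
    (QuotientAddGroup.mk D : S.Cl0) = QuotientAddGroup.mk D' ↔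
      (D' : Pl →₀ ℤ) - D ∈ S.Princ := by
  rw [QuotientAddGroup.eq, AddSubgroup.mem_addSubgroupOf]
  have : ((-D + D' : S.degZero) : Pl →₀ ℤ) = (D' : Pl →₀ ℤ) - D := by
    push_cast
    abel
  rw [this]

open Classical in
/-- the class of `E - g P₀` (or `0` if this is not of degree `0`) -/
def clsOf (P₀ : Pl) (E : Pl →₀ ℤ) : S.Cl0 :=
  if h : E - Finsupp.single P₀ (S.g : ℤ) ∈ S.degZero then
    QuotientAddGroup.mk (⟨E - Finsupp.single P₀ (S.g : ℤ), h⟩ : S.degZero) else 0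

/-- an invariant class of degree `0` is the class of `E - g P₀` with `E` invariant effective of
degree `g` -/
theorem exists_invEff_rep (P₀ : Pl) (hP₀ : S.φ P₀ = P₀) (x : S.Cl0) (hx : S.frob x = x) :
    ∃ E ∈ S.invEff S.g, ∃ h : E - Finsupp.single P₀ (S.g : ℤ) ∈ S.degZero,
      (QuotientAddGroup.mk (⟨E - Finsupp.single P₀ (S.g : ℤ), h⟩ : S.degZero) : S.Cl0) = x := by
  obtain ⟨D₀, rfl⟩ := QuotientAddGroup.mk_surjective x
  rw [S.frob_mk, mk_eq_mk_iff, S.coe_frobDegZero] at hx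
  have hD₀ : S.degree (D₀ : Pl →₀ ℤ) = 0 := D₀.2
  obtain ⟨D', hD'⟩ : ∃ D' : Pl →₀ ℤ, D' = (D₀ : Pl →₀ ℤ) + Finsupp.single P₀ (S.g : ℤ) :=
    ⟨_, rfl⟩
  have hdegD' : S.degree D' = S.g := by
    rw [hD', map_add, hD₀, S.degree_single, zero_add]
  have hactD' : act (S.φ ^ 1) D' - D' ∈ S.Princ := by
    rw [pow_one, hD', map_add, act_single, hP₀, add_sub_add_right_eq_sub]
    have := S.Princ.neg_mem hx
    rwa [neg_sub] at this
  have hl : 1 ≤ S.l D' := by
    have := S.rr D'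
    rw [hdegD'] at this
    omega
  have hcnt := S.cnt 1 one_pos D' hactD'
  have hpos : 0 < Nat.card {E : Pl →₀ ℤ // 0 ≤ E ∧ act (S.φ ^ 1) E = E ∧ E - D' ∈ S.Princ} := by
    rcases Nat.eq_zero_or_pos
      (Nat.card {E : Pl →₀ ℤ // 0 ≤ E ∧ act (S.φ ^ 1) E = E ∧ E - D' ∈ S.Princ}) with h | h
    · rw [h, zero_mul] at hcnt
      exfalso
      have : 2 ≤ S.Q ^ (1 * S.l D') := by
        calc 2 ≤ S.Q := S.two_le
          _ = S.Q ^ 1 := (pow_one _).symm
          _ ≤ S.Q ^ (1 * S.l D') :=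
            Nat.pow_le_pow_right (by have := S.two_le; omega) (by omega)
      omega
    · exact h
  obtain ⟨⟨E, hE0, hEφ, hEP⟩⟩ := (Nat.card_pos_iff.mp hpos).1
  rw [pow_one] at hEφ
  have hdegE : S.degree E = S.g := by
    have := S.princ_deg _ hEP
    rw [map_sub, hdegD'] at this
    omega
  refine ⟨E, ⟨hE0, hEφ, hdegE⟩, ?_, ?_⟩
  · show S.degree (E - Finsupp.single P₀ (S.g : ℤ)) = 0
    rw [map_sub, hdegE, S.degree_single, sub_self]
  · rw [mk_eq_mk_iff]
    have : (D₀ : Pl →₀ ℤ) - (E - Finsupp.single P₀ (S.g : ℤ)) = -(E - D') := by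
      rw [hD']
      abel
    show (D₀ : Pl →₀ ℤ) - (E - Finsupp.single P₀ (S.g : ℤ)) ∈ S.Princ
    rw [this]
    exact S.Princ.neg_mem hEP

theorem exists_inv_rep (x : S.Cl0) (hx : S.frob x = x) :
    ∃ D : S.degZero, act S.φ (D : Pl →₀ ℤ) = D ∧ QuotientAddGroup.mk D = x := by
  obtain ⟨P₀, hP₀⟩ := S.fixed
  obtain ⟨E, hE, h, hEx⟩ := exists_invEff_rep S P₀ hP₀ x hx
  refine ⟨⟨E - Finsupp.single P₀ (S.g : ℤ), h⟩, ?_, hEx⟩
  show act S.φ (E - Finsupp.single P₀ (S.g : ℤ)) = E - Finsupp.single P₀ (S.g : ℤ)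
  rw [map_sub, act_single, hP₀, hE.2.1]

theorem finite_fixed (m : ℕ) (hm : 0 < m) : Finite {x : S.Cl0 // (⇑S.frob)^[m] x = x} := by
  obtain ⟨P₀, hP₀⟩ := (S.pow m hm).fixed
  have hfin := invEff_finite (S.pow m hm) S.g
  have hsub : {x : S.Cl0 | (⇑S.frob)^[m] x = x} ⊆
      (clsOf S P₀) '' ((S.pow m hm).invEff S.g) := by
    intro x hx
    have hx' : (S.pow m hm).frob x = x := by
      rw [S.pow_frob]
      exact hx
    obtain ⟨E, hE, h, hEx⟩ := exists_invEff_rep (S.pow m hm) P₀ hP₀ x hx'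
    refine ⟨E, hE, ?_⟩
    have h' : E - Finsupp.single P₀ (S.g : ℤ) ∈ S.degZero := h
    unfold clsOf
    rw [dif_pos h']
    exact hEx
  exact ((hfin.image _).subset hsub).to_subtype

/-- **Z-FIN** -/
theorem stmt_Z_Fin : Stmt_Z_Fin.{u} := by
  intro Pl S
  exact ⟨invEff_finite S, exists_iterate_frob_eq S, finite_fixed S, exists_inv_rep S⟩

end Fermat.Agent.S27.Zeta.H97
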