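/-
S27 (row 26), char-p half, leaf Z-LOGDER (helper63): the logarithmic derivative of the Euler
product, `n A_n(χ) = ∑_{j=1}^n S_j(χ) A_{n-j}(χ)`, by double counting.
-/
import Fermat.Agent.S27.Zeta.Defs

set_option autoImplicit false

noncomputable section

namespace Fermat.Agent.S27.Zeta.H63

open Finset

universe u v

variable {Pl : Type u}

/-! ### Basic facts on `orbSum` -/

theorem orbSum_nonneg (φ : Equiv.Perm Pl) (j : ℕ) (P : Pl) : 0 ≤ orbSum φ j P := by
  unfold orbSum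
  refine Finset.sum_nonneg fun i _ => ?_
  exact Finsupp.single_nonneg.2 zero_le_one

theorem orbSum_add (φ : Equiv.Perm Pl) (a b : ℕ) (P : Pl) :
    orbSum φ (a + b) P = orbSum φ a P + orbSum φ b ((φ ^ a) P) := by
  unfold orbSum
  rw [Finset.sum_range_add]
  congr 1
  refine Finset.sum_congr rfl fun i _ => ?_
  rw [add_comm a i, pow_add, Equiv.Perm.mul_apply]

theorem orbSum_mul (φ : Equiv.Perm Pl) (e r : ℕ) (P : Pl) (h : (φ ^ e) P = P) :
    orbSum φ (e * r) P = r • orbSum φ e P := by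
  induction r with
  | zero => simp [orbSum]
  | succ r ih =>
    have hr : (φ ^ (e * r)) P = P := by
      rw [pow_mul]
      exact Function.IsFixedPt.perm_pow (show Function.IsFixedPt (⇑(φ ^ e)) P from h) r
    rw [Nat.mul_succ, orbSum_add, ih, hr, succ_nsmul]

theorem deg_orbSum (φ : Equiv.Perm Pl) (j : ℕ) (P : Pl) : deg (orbSum φ j P) = j := by
  unfold orbSum
  rw [map_sum]
  simp

theorem act_orbSum (φ : Equiv.Perm Pl) (j : ℕ) (P : Pl) (h : (φ ^ j) P = P) :
    act φ (orbSum φ j P) = orbSum φ j P := by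
  cases j with
  | zero => simp [orbSum]
  | succ j =>
    have h1 : orbSum φ (j + 1) P = orbSum φ j P + Finsupp.single ((φ ^ j) P) 1 := by
      rw [orbSum_add]
      simp [orbSum]
    have h2 : orbSum φ (1 + j) P = Finsupp.single P 1 + orbSum φ j (φ P) := by
      rw [orbSum_add]
      simp [orbSum]
    have h3 : act φ (orbSum φ j P) = orbSum φ j (φ P) := by
      unfold orbSum
      rw [map_sum]
      refine Finset.sum_congr rfl fun i _ => ?_
      rw [act_single, ← Equiv.Perm.mul_apply, ← pow_succ', pow_succ, Equiv.Perm.mul_apply]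
    rw [h1, map_add, h3, act_single, ← Equiv.Perm.mul_apply, ← pow_succ', h, add_comm,
      ← h2, add_comm 1 j, h1]

open scoped Classical in
theorem orbSum_apply (φ : Equiv.Perm Pl) (j : ℕ) (P Q : Pl) :
    (orbSum φ j P) Q = (((range j).filter (fun i => (φ ^ i) P = Q)).card : ℤ) := by
  unfold orbSum
  rw [Finsupp.finsetSum_apply]
  simp only [Finsupp.single_apply]
  rw [Finset.sum_boole]

theorem orbSum_one (φ : Equiv.Perm Pl) (P : Pl) : orbSum φ 1 P = Finsupp.single P 1 := by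
  simp [orbSum]

theorem single_le_orbSum (φ : Equiv.Perm Pl) {e : ℕ} (he : 0 < e) (P : Pl) :
    Finsupp.single P 1 ≤ orbSum φ e P := by
  obtain ⟨k, rfl⟩ : ∃ k, e = 1 + k := ⟨e - 1, by omega⟩
  rw [orbSum_add, orbSum_one]
  exact le_add_of_nonneg_right (orbSum_nonneg φ k _)

/-! ### Degree -/

theorem deg_apply (D : Pl →₀ ℤ) : deg D = D.sum fun _ n => n := by
  unfold deg
  rw [Finsupp.liftAddHom_apply]
  rfl

theorem deg_nonneg {D : Pl →₀ ℤ} (hD : 0 ≤ D) : 0 ≤ deg D := by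
  rw [deg_apply]
  exact Finset.sum_nonneg fun P _ => hD P

theorem deg_mono {D E : Pl →₀ ℤ} (h : D ≤ E) : deg D ≤ deg E := by
  have h1 : 0 ≤ E - D := sub_nonneg.2 h
  have h2 := deg_nonneg h1
  rw [map_sub] at h2
  linarith

theorem deg_eq_sum {D : Pl →₀ ℤ} (s : Finset Pl) (hs : D.support ⊆ s) :
    deg D = ∑ P ∈ s, D P := by
  rw [deg_apply]
  exact Finsupp.sum_of_support_subset D hs (fun _ n => n) (fun _ _ => rfl)

theorem apply_le_deg {D : Pl →₀ ℤ} (hD : 0 ≤ D) (P : Pl) : D P ≤ deg D := by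
  by_cases hP : P ∈ D.support
  · rw [deg_apply]
    exact Finset.single_le_sum (f := fun Q => D Q) (fun Q _ => hD Q) hP
  · rw [Finsupp.notMem_support_iff.1 hP]
    exact deg_nonneg hD

/-! ### Invariant divisors are constant on orbits -/

theorem inv_apply {φ : Equiv.Perm Pl} {D : Pl →₀ ℤ} (hD : act φ D = D) (Q : Pl) :
    D (φ Q) = D Q := by
  conv_lhs => rw [← hD, act_apply]
  exact Finsupp.mapDomain_apply φ.injective D Q

theorem inv_apply_pow {φ : Equiv.Perm Pl} {D : Pl →₀ ℤ} (hD : act φ D = D) (i : ℕ) (Q : Pl) :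
    D ((φ ^ i) Q) = D Q := by
  induction i with
  | zero => simp
  | succ i ih => rw [pow_succ', Equiv.Perm.mul_apply, inv_apply hD, ih]

/-! ### The minimal period -/

theorem pow_minimalPeriod (φ : Equiv.Perm Pl) (P : Pl) :
    (φ ^ Function.minimalPeriod φ P) P = P := by
  have h := Function.isPeriodicPt_minimalPeriod (⇑φ) P
  rw [Function.IsPeriodicPt, Function.IsFixedPt, Equiv.Perm.iterate_eq_pow] at h
  exact h

theorem minimalPeriod_pos {φ : Equiv.Perm Pl} {P : Pl} {m : ℕ} (hm : 0 < m)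
    (h : (φ ^ m) P = P) : 0 < Function.minimalPeriod φ P := by
  apply Function.minimalPeriod_pos_of_mem_periodicPts
  refine Function.mk_mem_periodicPts hm ?_
  rw [Function.IsPeriodicPt, Function.IsFixedPt, Equiv.Perm.iterate_eq_pow]
  exact h

theorem minimalPeriod_dvd {φ : Equiv.Perm Pl} {P : Pl} {m : ℕ}
    (h : (φ ^ m) P = P) : Function.minimalPeriod φ P ∣ m := by
  apply Function.IsPeriodicPt.minimalPeriod_dvd
  rw [Function.IsPeriodicPt, Function.IsFixedPt, Equiv.Perm.iterate_eq_pow]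
  exact h

/-- the orbit divisor has multiplicities `≤ 1` -/
theorem orbSum_minimalPeriod_le_one (φ : Equiv.Perm Pl) (P Q : Pl) :
    (orbSum φ (Function.minimalPeriod φ P) P) Q ≤ 1 := by
  classical
  rw [orbSum_apply]
  have : ((range (Function.minimalPeriod φ P)).filter (fun i => (φ ^ i) P = Q)).card ≤ 1 := by
    rw [Finset.card_le_one]
    intro a ha b hb
    rw [Finset.mem_filter, Finset.mem_range] at ha hb
    have hinj := Function.iterate_injOn_Iio_minimalPeriod (f := ⇑φ) (x := P)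
    apply hinj (Set.mem_Iio.2 ha.1) (Set.mem_Iio.2 hb.1)
    show (⇑φ)^[a] P = (⇑φ)^[b] P
    rw [Equiv.Perm.iterate_eq_pow, Equiv.Perm.iterate_eq_pow, ha.2, hb.2]
  exact_mod_cast this

theorem orbSum_ne_zero {φ : Equiv.Perm Pl} {j : ℕ} {P Q : Pl} (h : (orbSum φ j P) Q ≠ 0) :
    ∃ i, (φ ^ i) P = Q := by
  classical
  rw [orbSum_apply] at h
  have h' : ((range j).filter (fun i => (φ ^ i) P = Q)).card ≠ 0 := by
    intro h0
    apply h
    rw [h0]
    rfl
  obtain ⟨i, hi⟩ := Finset.card_pos.1 (Nat.pos_of_ne_zero h')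
  exact ⟨i, (Finset.mem_filter.1 hi).2⟩

/-- `r` times the orbit divisor of `P` is below an invariant effective divisor `D` with
`r ≤ D(P)` -/
theorem nsmul_orbSum_le {φ : Equiv.Perm Pl} {D : Pl →₀ ℤ} (hD0 : 0 ≤ D) (hD : act φ D = D)
    (P : Pl) {r : ℕ} (hr : (r : ℤ) ≤ D P) :
    r • orbSum φ (Function.minimalPeriod φ P) P ≤ D := by
  intro Q
  rw [Finsupp.smul_apply, nsmul_eq_mul]
  by_cases h0 : (orbSum φ (Function.minimalPeriod φ P) P) Q = 0
  · rw [h0, mul_zero]
    exact hD0 Q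
  · obtain ⟨i, rfl⟩ := orbSum_ne_zero h0
    rw [inv_apply_pow hD]
    have h1 := orbSum_minimalPeriod_le_one φ P ((φ ^ i) P)
    have h2 : (0 : ℤ) ≤ r := Int.natCast_nonneg r
    calc (r : ℤ) * _ ≤ r * 1 := mul_le_mul_of_nonneg_left h1 h2
      _ = r := mul_one _
      _ ≤ D P := hr

open scoped Classical in
/-- the count behind the double counting -/
theorem card_filter_orb {φ : Equiv.Perm Pl} {n : ℕ} {D : Pl →₀ ℤ} (hD : D ∈ effInv φ n)
    {P : Pl} (hP : ∃ m : ℕ, 0 < m ∧ (φ ^ m) P = P) :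
    ((Icc 1 n).filter (fun j => (φ ^ j) P = P ∧ orbSum φ j P ≤ D)).card = (D P).toNat := by
  obtain ⟨hD0, hDinv, hDdeg⟩ := hD
  obtain ⟨m, hm, hmP⟩ := hP
  have he : 0 < Function.minimalPeriod φ P := minimalPeriod_pos hm hmP
  have hPe := pow_minimalPeriod φ P
  have key : (Icc 1 n).filter (fun j => (φ ^ j) P = P ∧ orbSum φ j P ≤ D) =
      (Icc 1 (D P).toNat).image (fun r => Function.minimalPeriod φ P * r) := by
    ext j
    simp only [Finset.mem_filter, Finset.mem_Icc, Finset.mem_image]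
    constructor
    · rintro ⟨⟨hj1, hjn⟩, hjP, hle⟩
      obtain ⟨r, rfl⟩ := minimalPeriod_dvd hjP
      refine ⟨r, ⟨?_, ?_⟩, rfl⟩
      · rcases Nat.eq_zero_or_pos r with h | h
        · rw [h, mul_zero] at hj1; omega
        · exact h
      · rw [orbSum_mul φ _ r P hPe] at hle
        have h1 := hle P
        rw [Finsupp.smul_apply, nsmul_eq_mul] at h1
        have h2 := single_le_orbSum φ he P P
        rw [Finsupp.single_eq_same] at h2
        have h3 : (r : ℤ) ≤ D P := by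
          calc (r : ℤ) = r * 1 := (mul_one _).symm
            _ ≤ r * (orbSum φ (Function.minimalPeriod φ P) P) P :=
                mul_le_mul_of_nonneg_left h2 (Int.natCast_nonneg r)
            _ ≤ D P := h1
        omega
    · rintro ⟨r, ⟨hr1, hr2⟩, rfl⟩
      have hr : (r : ℤ) ≤ D P := by omega
      have hle : orbSum φ (Function.minimalPeriod φ P * r) P ≤ D := by
        rw [orbSum_mul φ _ r P hPe]
        exact nsmul_orbSum_le hD0 hDinv P hr
      refine ⟨⟨Nat.mul_pos he hr1, ?_⟩, ?_, hle⟩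
      · have h1 := deg_mono hle
        rw [deg_orbSum, hDdeg] at h1
        exact_mod_cast h1
      · rw [pow_mul]
        exact Function.IsFixedPt.perm_pow (show Function.IsFixedPt (⇑(φ ^ _)) P from hPe) r
  rw [key, Finset.card_image_of_injective _ (mul_right_injective₀ he.ne'), Nat.card_Icc]
  omega

/-! ### Finiteness -/

/-- the places of period `≤ n` -/
def perLe (φ : Equiv.Perm Pl) (n : ℕ) : Set Pl := {P | ∃ j ∈ Finset.Icc 1 n, (φ ^ j) P = P}

theorem perLe_finite {φ : Equiv.Perm Pl} (hfix : ∀ m : ℕ, 0 < m → (fixPts φ m).Finite) (n : ℕ) :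
    (perLe φ n).Finite := by
  have h : perLe φ n = ⋃ j ∈ (Finset.Icc 1 n : Set ℕ), fixPts φ j := by
    ext P
    simp only [perLe, fixPts, Set.mem_ofPred_eq, Set.mem_iUnion, Finset.mem_coe, exists_prop]
  rw [h]
  refine Set.Finite.biUnion (Finset.finite_toSet _) fun j hj => ?_
  exact hfix j (Finset.mem_Icc.1 hj).1

/-- the support of an invariant effective divisor of degree `n` consists of places of period
`≤ n` -/
theorem support_subset_perLe {φ : Equiv.Perm Pl}
    (hper : ∀ P : Pl, ∃ m : ℕ, 0 < m ∧ (φ ^ m) P = P) {n : ℕ} {D : Pl →₀ ℤ}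
    (hD : D ∈ effInv φ n) {P : Pl} (hP : D P ≠ 0) : P ∈ perLe φ n := by
  obtain ⟨hD0, hDinv, hDdeg⟩ := hD
  obtain ⟨m, hm, hmP⟩ := hper P
  have he : 0 < Function.minimalPeriod φ P := minimalPeriod_pos hm hmP
  have h1 : (1 : ℤ) ≤ D P := by
    have := hD0 P
    rw [Finsupp.zero_apply] at this
    omega
  have h2 : (1 : ℕ) • orbSum φ (Function.minimalPeriod φ P) P ≤ D :=
    nsmul_orbSum_le hD0 hDinv P (by exact_mod_cast h1)
  rw [one_nsmul] at h2
  have h3 := deg_mono h2
  rw [deg_orbSum, hDdeg] at h3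
  exact ⟨Function.minimalPeriod φ P, Finset.mem_Icc.2 ⟨he, by exact_mod_cast h3⟩,
    pow_minimalPeriod φ P⟩

theorem effInv_finite {φ : Equiv.Perm Pl}
    (hper : ∀ P : Pl, ∃ m : ℕ, 0 < m ∧ (φ ^ m) P = P)
    (hfix : ∀ m : ℕ, 0 < m → (fixPts φ m).Finite) (n : ℕ) : (effInv φ n).Finite := by
  classical
  set F : Finset Pl := (perLe_finite hfix n).toFinset with hF
  set B : Pl →₀ ℤ := ∑ P ∈ F, Finsupp.single P (n : ℤ) with hB
  have hBapp : ∀ P, B P = if P ∈ F then (n : ℤ) else 0 := by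
    intro P
    rw [hB, Finsupp.finsetSum_apply]
    simp only [Finsupp.single_apply]
    rw [Finset.sum_ite_eq' F P]
  refine (Set.finite_Icc (0 : Pl →₀ ℤ) B).subset ?_
  intro D hD
  refine ⟨hD.1, ?_⟩
  intro P
  rw [hBapp]
  split_ifs with hPF
  · have := apply_le_deg hD.1 P
    rw [hD.2.2] at this
    exact this
  · by_contra hne
    have hP0 : D P ≠ 0 := by
      intro h0
      rw [h0] at hne
      exact hne le_rfl
    exact hPF ((Set.Finite.mem_toFinset _).2 (support_subset_perLe hper hD hP0))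

/-! ### The double counting -/

theorem add_mem_effInv {φ : Equiv.Perm Pl} {a b : ℕ} {D E : Pl →₀ ℤ} (hD : D ∈ effInv φ a)
    (hE : E ∈ effInv φ b) : D + E ∈ effInv φ (a + b) := by
  refine ⟨add_nonneg hD.1 hE.1, ?_, ?_⟩
  · rw [map_add, hD.2.1, hE.2.1]
  · rw [map_add, hD.2.2, hE.2.2, Nat.cast_add]

theorem orbSum_mem_effInv {φ : Equiv.Perm Pl} {j : ℕ} {P : Pl} (h : (φ ^ j) P = P) :
    orbSum φ j P ∈ effInv φ j :=
  ⟨orbSum_nonneg φ j P, act_orbSum φ j P h, deg_orbSum φ j P⟩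

theorem sub_mem_effInv {φ : Equiv.Perm Pl} {a b : ℕ} {D E : Pl →₀ ℤ} (hD : D ∈ effInv φ a)
    (hE : E ∈ effInv φ b) (hle : E ≤ D) : D - E ∈ effInv φ (a - b) := by
  have hba : b ≤ a := by
    have := deg_mono hle
    rw [hD.2.2, hE.2.2] at this
    exact_mod_cast this
  refine ⟨sub_nonneg.2 hle, ?_, ?_⟩
  · rw [map_sub, hD.2.1, hE.2.1]
  · rw [map_sub, hD.2.2, hE.2.2, Nat.cast_sub hba]

open scoped Classical in
/-- the inner sum, re-indexed by `D = orbSum + E` -/
theorem sum_shift {φ : Equiv.Perm Pl} (hA : ∀ n : ℕ, (effInv φ n).Finite)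
    {R : Type v} [CommRing R] (χ : (Pl →₀ ℤ) → R) {n j : ℕ} (hjn : j ≤ n) {P : Pl}
    (hP : (φ ^ j) P = P) :
    ∑ E ∈ (hA (n - j)).toFinset, χ (orbSum φ j P + E) =
      ∑ D ∈ (hA n).toFinset, if orbSum φ j P ≤ D then χ D else 0 := by
  rw [← Finset.sum_filter]
  refine Finset.sum_nbij' (fun E => orbSum φ j P + E) (fun D => D - orbSum φ j P) ?_ ?_ ?_ ?_ ?_
  · intro E hE
    rw [Set.Finite.mem_toFinset] at hE
    rw [Finset.mem_filter, Set.Finite.mem_toFinset]
    refine ⟨?_, le_add_of_nonneg_right hE.1⟩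
    have := add_mem_effInv (orbSum_mem_effInv hP) hE
    rwa [Nat.add_sub_cancel' hjn] at this
  · intro D hD
    rw [Finset.mem_filter, Set.Finite.mem_toFinset] at hD
    rw [Set.Finite.mem_toFinset]
    exact sub_mem_effInv hD.1 (orbSum_mem_effInv hP) hD.2
  · intro E _
    exact add_sub_cancel_left _ _
  · intro D _
    exact add_sub_cancel _ _
  · intro E _
    rfl

/-- **Z-LOGDER**, with explicit finite sets. -/
theorem logDer_finset {φ : Equiv.Perm Pl}
    (hper : ∀ P : Pl, ∃ m : ℕ, 0 < m ∧ (φ ^ m) P = P)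
    (hfix : ∀ m : ℕ, 0 < m → (fixPts φ m).Finite)
    {R : Type v} [CommRing R] (χ : (Pl →₀ ℤ) → R)
    (hχ : ∀ D E : Pl →₀ ℤ, 0 ≤ D → 0 ≤ E → act φ D = D → act φ E = E → χ (D + E) = χ D * χ E)
    (n : ℕ) :
    (n : R) * (∑ᶠ E ∈ effInv φ n, χ E) =
      ∑ j ∈ Finset.Icc 1 n,
        (∑ᶠ P ∈ fixPts φ j, χ (orbSum φ j P)) * (∑ᶠ E ∈ effInv φ (n - j), χ E) := by
  classical
  have hA := effInv_finite hper hfix
  set F : Finset Pl := (perLe_finite hfix n).toFinset with hF
  have hterm : ∀ j ∈ Finset.Icc 1 n,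
      (∑ᶠ P ∈ fixPts φ j, χ (orbSum φ j P)) * (∑ᶠ E ∈ effInv φ (n - j), χ E) =
        ∑ P ∈ F, ∑ D ∈ (hA n).toFinset,
          if (φ ^ j) P = P ∧ orbSum φ j P ≤ D then χ D else 0 := by
    intro j hj
    obtain ⟨hj1, hjn⟩ := Finset.mem_Icc.1 hj
    rw [finsum_mem_eq_finite_toFinset_sum _ (hfix j hj1),
      finsum_mem_eq_finite_toFinset_sum _ (hA (n - j))]
    have hFj : (hfix j hj1).toFinset = F.filter (fun P => (φ ^ j) P = P) := by
      ext P
      rw [Set.Finite.mem_toFinset, Finset.mem_filter, hF, Set.Finite.mem_toFinset]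
      constructor
      · intro h
        exact ⟨⟨j, hj, h⟩, h⟩
      · intro h
        exact h.2
    rw [hFj, Finset.sum_mul_sum, Finset.sum_filter]
    refine Finset.sum_congr rfl fun P _ => ?_
    split_ifs with hP
    · have h1 : ∀ E ∈ (hA (n - j)).toFinset,
          χ (orbSum φ j P) * χ E = χ (orbSum φ j P + E) := by
        intro E hE
        rw [Set.Finite.mem_toFinset] at hE
        exact (hχ _ _ (orbSum_nonneg φ j P) hE.1 (act_orbSum φ j P hP) hE.2.1).symm
      rw [Finset.sum_congr rfl h1, sum_shift hA χ hjn hP]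
      refine Finset.sum_congr rfl fun D _ => ?_
      simp only [hP, true_and]
    · symm
      refine Finset.sum_eq_zero fun D _ => ?_
      rw [if_neg]
      exact fun h => hP h.1
  rw [Finset.sum_congr rfl hterm, finsum_mem_eq_finite_toFinset_sum _ (hA n), Finset.mul_sum]
  -- swap the sums
  have hswap : ∑ j ∈ Finset.Icc 1 n, ∑ P ∈ F, ∑ D ∈ (hA n).toFinset,
      (if (φ ^ j) P = P ∧ orbSum φ j P ≤ D then χ D else 0) =
      ∑ D ∈ (hA n).toFinset, ∑ P ∈ F, ∑ j ∈ Finset.Icc 1 n,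
        (if (φ ^ j) P = P ∧ orbSum φ j P ≤ D then χ D else 0) := by
    rw [Finset.sum_comm]
    rw [Finset.sum_congr rfl fun P _ => Finset.sum_comm]
    rw [Finset.sum_comm]
  rw [hswap]
  refine Finset.sum_congr rfl fun D hD => ?_
  rw [Set.Finite.mem_toFinset] at hD
  have hcount : ∀ P ∈ F, ∑ j ∈ Finset.Icc 1 n,
      (if (φ ^ j) P = P ∧ orbSum φ j P ≤ D then χ D else 0) = ((D P).toNat : R) * χ D := by
    intro P _
    rw [← Finset.sum_filter, Finset.sum_const, card_filter_orb hD (hper P), nsmul_eq_mul]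
  rw [Finset.sum_congr rfl hcount, ← Finset.sum_mul]
  congr 1
  have hsupp : D.support ⊆ F := by
    intro P hP
    rw [hF, Set.Finite.mem_toFinset]
    exact support_subset_perLe hper hD (Finsupp.mem_support_iff.1 hP)
  have hdeg := deg_eq_sum F hsupp
  rw [hD.2.2] at hdeg
  have hnat : (n : ℤ) = ((∑ P ∈ F, (D P).toNat : ℕ) : ℤ) := by
    rw [hdeg, Nat.cast_sum]
    refine Finset.sum_congr rfl fun P _ => ?_
    have := hD.1 P
    rw [Finsupp.zero_apply] at this
    omega
  have hnat' : n = ∑ P ∈ F, (D P).toNat := by exact_mod_cast hnat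
  conv_lhs => rw [hnat']
  rw [Nat.cast_sum]

theorem stmt_Z_LogDer : Stmt_Z_LogDer.{u, v} := by
  intro Pl φ hper hfix R _ χ _ hχ n
  exact logDer_finset hper hfix χ hχ n

/-- the first clause of Z-FIN: finitely many invariant effective divisors of given degree -/
theorem invEff_finite (S : ZSys Pl) (n : ℕ) : (S.invEff n).Finite := by
  rw [S.invEff_eq]
  exact effInv_finite S.orbit S.fixfin n

theorem finsum_mem_one_eq_ncard {α : Type u} {s : Set α} (hs : s.Finite) :
    (∑ᶠ _a ∈ s, (1 : ℤ)) = (s.ncard : ℤ) := by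
  rw [finsum_mem_eq_finite_toFinset_sum _ hs, Finset.sum_const, Set.ncard_eq_toFinset_card s hs]
  simp

/-- **Z-LOGDER** for the trivial character: `n A_n = ∑_{j=1}^n #Fix(φ^j) A_{n-j}`. -/
theorem logDer_card {φ : Equiv.Perm Pl}
    (hper : ∀ P : Pl, ∃ m : ℕ, 0 < m ∧ (φ ^ m) P = P)
    (hfix : ∀ m : ℕ, 0 < m → (fixPts φ m).Finite) (n : ℕ) :
    (n : ℤ) * ((effInv φ n).ncard : ℤ) =
      ∑ j ∈ Finset.Icc 1 n, ((fixPts φ j).ncard : ℤ) * ((effInv φ (n - j)).ncard : ℤ) := by
  have h := logDer_finset hper hfix (R := ℤ) (fun _ => (1 : ℤ)) (fun _ _ _ _ _ _ => (mul_one _).symm) n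
  have hA := effInv_finite hper hfix
  rw [finsum_mem_one_eq_ncard (hA n)] at h
  rw [h]
  refine Finset.sum_congr rfl fun j hj => ?_
  rw [finsum_mem_one_eq_ncard (hA (n - j)),
    finsum_mem_one_eq_ncard (hfix j (Finset.mem_Icc.1 hj).1)]

end Fermat.Agent.S27.Zeta.H63
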