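/-
S27 char-p half (planner helper62): sub-leaves of Z-NORM (`Zeta.Stmt_Z_Norm`).
* `Stmt_Z_NormPS`  : pure power series algebra over `ℂ` (no `ZSys`);
* `Stmt_Z_NormChi` : the character of a class which is not a norm;
* assembly `Stmt_Z_Norm ⟸ NormChi + NormPS + Z-LOGDER + Z-FIN` : helper62, `H62_NormAsm.lean`.
No `sorry` here.
-/
import Fermat.Agent.S27.Zeta.Defs

set_option autoImplicit false

noncomputable section

namespace Fermat.Agent.S27.Zeta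

universe u

/-- **NORM-PS** (pure algebra).  `a` is a polynomial with `a(0) = 1` and logarithmic derivative
`t a'/a = ∑ s_j t^j`; `b` is a power series with `b(0) = 1` and `t b'/b = ∑_j N_(m j) t^j`; and
`s_j = N_j` whenever `m ∣ j`.  Then `b` is a polynomial.
(Proof: `Π(t) := ∏_{ζ^m = 1} a(ζ t)` is a polynomial with `Π(0) = 1` and
`t Π'/Π = ∑_j (∑_ζ ζ^j) s_j t^j = m ∑_{m ∣ j} N_j t^j`; `B(t) := b(t^m)` has `B(0) = 1` and the
same logarithmic derivative; the recursion `n y_n = ∑_{j=1}^n u_j y_(n-j)` has a unique solution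
with `y_0 = 1`, so `B = Π`.) -/
def Stmt_Z_NormPS : Prop :=
  ∀ m : ℕ, 0 < m → ∀ a s b N : ℕ → ℂ,
    a 0 = 1 → (∃ d : ℕ, ∀ n : ℕ, d ≤ n → a n = 0) →
    (∀ n : ℕ, (n : ℂ) * a n = ∑ j ∈ Finset.Icc 1 n, s j * a (n - j)) →
    b 0 = 1 →
    (∀ n : ℕ, (n : ℂ) * b n = ∑ j ∈ Finset.Icc 1 n, N (m * j) * b (n - j)) →
    (∀ j : ℕ, m ∣ j → s j = N j) →
    ∃ d : ℕ, ∀ n : ℕ, d ≤ n → b n = 0

/-- **NORM-CHI**.  If the invariant class `x` is not a norm from the `φ^m`-invariant classes,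
there is a function `χ` on divisors, multiplicative on invariant effective divisors, with
`∑_{E ∈ effInv n} χ(E) = 0` for `n ≥ 2g - 1` and `χ(P + φP + … + φ^(j-1)P) = 1` for `m ∣ j`,
`φ^j P = P`.
(Proof: `H := (Cl⁰)^φ` is finite (Z-FIN), `N := {y + φy + … + φ^(m-1)y : φ^m y = y} ≤ H`, `x ∉ N`;
a character `χ₀ : H/N → ℂˣ` with `χ₀(x) ≠ 1` (`CommGroup.exists_apply_ne_one_of_hasEnoughRootsOfUnity`);
`χ(D) := χ₀([D - deg(D) P₀])` for `D` invariant (`P₀` the fixed place), `χ(D) := 1` otherwise.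
For `n ≥ 2g - 1` every invariant class of degree `n` contains `(Q^(n+1-g) - 1)/(Q - 1)`
invariant effective divisors (`cnt` with `m = 1`, `rr`, `l_neg`; `deg W = 2g - 2` from `rr`,
`l_zero`), and `∑_{c ∈ H} χ₀(c) = 0`.  For `m ∣ j`, `φ^j P = P`:
`orbSum φ j P = ∑_{i<m} φ^i E` with `E = ∑_{r<j/m} φ^(m r) P`, `φ^m E = E`.) -/
def Stmt_Z_NormChi : Prop :=
  ∀ (Pl : Type u) (S : ZSys Pl) (m : ℕ), 0 < m → ∀ x : S.Cl0, S.frob x = x →
    (¬ ∃ y : S.Cl0, (⇑S.frob)^[m] y = y ∧ ∑ i ∈ Finset.range m, (⇑S.frob)^[i] y = x) →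
    ∃ χ : (Pl →₀ ℤ) → ℂ, χ 0 = 1 ∧
      (∀ D E : Pl →₀ ℤ, 0 ≤ D → 0 ≤ E → act S.φ D = D → act S.φ E = E →
        χ (D + E) = χ D * χ E) ∧
      (∀ n : ℕ, 2 * S.g ≤ n + 1 → ∑ᶠ E ∈ effInv S.φ n, χ E = 0) ∧
      (∀ j : ℕ, m ∣ j → ∀ P ∈ fixPts S.φ j, χ (orbSum S.φ j P) = 1)

end Fermat.Agent.S27.Zeta
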